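/-
helper80 (P-CFT, S14 fast track, WP-A5 "crossing fields").  Shared definitions for the files
`Unram/CrossingFields/*.lean`: the big field `M = L(ζ_m)` over `K`, the image of `L` in `M`, the
mod `m` cyclotomic character of `Gal(M/K)` and the product map to `Gal(L/K) × (ZMod m)ˣ`.
Only definitions; the theorems are in `Tower.lean`.
-/
import Mathlib

set_option autoImplicit false

namespace Fermat.Agent.Lib.CFT.Unram.CrossingFields

open IntermediateField Polynomial

variable (K L M : Type*) [Field K] [Field L] [Field M] [Algebra K L] [Algebra L M] [Algebra K M]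
  [IsScalarTower K L M] (m : ℕ) [NeZero m] [IsCyclotomicExtension {m} L M]

/-- The image of `L` in `M`, as an intermediate field of `M/K`. -/
def Lm : IntermediateField K M := (IsScalarTower.toAlgHom K L M).fieldRange

theorem mem_Lm {x : M} : x ∈ Lm K L M ↔ ∃ y : L, algebraMap L M y = x := by
  simp [Lm, AlgHom.mem_fieldRange]

theorem algebraMap_mem_Lm (y : L) : algebraMap L M y ∈ Lm K L M :=
  (mem_Lm K L M).2 ⟨y, rfl⟩

/-- The mod `m` cyclotomic character of `Gal(M/K)`, where `M = L(ζ_m)`. -/
noncomputable def chi : Gal(M/K) →* (ZMod m)ˣ :=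
  (IsCyclotomicExtension.zeta_spec m L M).autToPow K

/-- The product map `Gal(M/K) → Gal(L/K) × (ZMod m)ˣ`, `σ ↦ (σ|_L, χ(σ))`. -/
noncomputable def toProd [Normal K L] : Gal(M/K) →* Gal(L/K) × (ZMod m)ˣ :=
  (AlgEquiv.restrictNormalHom L).prod (chi K L M m)

end Fermat.Agent.Lib.CFT.Unram.CrossingFields
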