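/-
helper66 (P-CFT, S14 fast track, WP-A5 "crossing fields", piece T).  The tower `M = L(ζ_m)` over
`K`: `M/K` is Galois and finite when `L/K` is, the cyclotomic character `chi` acts on all `m`-th
roots of unity, and `toProd : Gal(M/K) → Gal(L/K) × (ZMod m)ˣ` is injective, and bijective as soon
as the `m`-th cyclotomic polynomial is irreducible over `L`.
-/
import Mathlib
import Fermat.Agent.Lib.CFT.Unram.CrossingFields.Defs

set_option autoImplicit false
set_option linter.unusedSectionVars false

namespace Fermat.Agent.Lib.CFT.Unram.CrossingFields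

open Polynomial IntermediateField

/-- Degree criterion: if the `m`-th cyclotomic extension of `L` has degree `φ m` then the
cyclotomic polynomial is irreducible over `L`. -/
theorem irreducible_cyclotomic_of_finrank {L M : Type*} [Field L] [Field M] [Algebra L M]
    (m : ℕ) [NeZero m] [IsCyclotomicExtension {m} L M]
    (h : Module.finrank L M = m.totient) : Irreducible (cyclotomic m L) := by
  have hζ := IsCyclotomicExtension.zeta_spec m L M
  set ζ := IsCyclotomicExtension.zeta m L M with hζdef
  have hint : IsIntegral L ζ := (hζ.isIntegral (NeZero.pos m)).tower_top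
  have hdeg : (minpoly L ζ).natDegree = m.totient := by
    rw [← h, (hζ.powerBasis L).finrank, ← (hζ.powerBasis L).natDegree_minpoly,
      IsPrimitiveRoot.powerBasis_gen]
  have hdvd : minpoly L ζ ∣ cyclotomic m L := by
    apply minpoly.dvd
    rw [aeval_def, eval₂_eq_eval_map, map_cyclotomic]
    exact hζ.isRoot_cyclotomic (NeZero.pos m)
  have heq : cyclotomic m L = minpoly L ζ :=
    eq_of_monic_of_dvd_of_natDegree_le (minpoly.monic hint) (cyclotomic.monic m L) hdvd
      (by rw [hdeg, natDegree_cyclotomic])
  rw [heq]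
  exact minpoly.irreducible hint

section Tower

variable (K L M : Type*) [Field K] [Field L] [Field M] [Algebra K L] [Algebra L M] [Algebra K M]
  [IsScalarTower K L M] (m : ℕ) [NeZero m] [IsCyclotomicExtension {m} L M]

/-- `M = L(ζ_m)` is generated over `K` by `L` and `ζ_m`. -/
theorem Lm_sup_adjoin_zeta_eq_top :
    Lm K L M ⊔ K⟮IsCyclotomicExtension.zeta m L M⟯ = ⊤ := by
  have hζ := IsCyclotomicExtension.zeta_spec m L M
  set ζ := IsCyclotomicExtension.zeta m L M with hζdef
  rw [eq_top_iff]
  intro x hxtop
  clear hxtop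
  have hx : x ∈ Algebra.adjoin L ({ζ} : Set M) := by
    rw [IsCyclotomicExtension.adjoin_primitive_root_eq_top hζ]
    exact Algebra.mem_top
  induction hx using Algebra.adjoin_induction with
  | mem y hy =>
    rw [Set.mem_singleton_iff] at hy
    rw [hy]
    exact (le_sup_right : K⟮ζ⟯ ≤ _ ⊔ K⟮ζ⟯) (mem_adjoin_simple_self K ζ)
  | algebraMap l =>
    exact (le_sup_left : Lm K L M ≤ _ ⊔ K⟮ζ⟯) (algebraMap_mem_Lm K L M l)
  | add y z _ _ hy hz => exact add_mem hy hz
  | mul y z _ _ hy hz => exact mul_mem hy hz

/-- `L` is isomorphic over `K` to its image `Lm` in `M`. -/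
noncomputable def equivLm : L ≃ₐ[K] Lm K L M :=
  AlgEquiv.ofInjectiveField (IsScalarTower.toAlgHom K L M)

theorem equivLm_apply (y : L) : (equivLm K L M y : M) = algebraMap L M y := rfl

include m in
theorem normal_top [Normal K L] : Normal K M := by
  have hζ := IsCyclotomicExtension.zeta_spec m L M
  set ζ := IsCyclotomicExtension.zeta m L M with hζdef
  have : Normal K (Lm K L M) := Normal.of_algEquiv (equivLm K L M)
  have : Algebra.IsIntegral K L := ⟨Normal.isIntegral inferInstance⟩
  have : Algebra.IsIntegral L M := IsCyclotomicExtension.integral {m} L M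
  have : Algebra.IsIntegral K M := Algebra.IsIntegral.trans L
  have : IsCyclotomicExtension {m} K K⟮ζ⟯ := hζ.intermediateField_adjoin_isCyclotomicExtension K
  have : IsSplittingField K K⟮ζ⟯ (X ^ m - 1) :=
    IsCyclotomicExtension.isSplittingField_X_pow_sub_one m K K⟮ζ⟯
  have : Normal K K⟮ζ⟯ := Normal.of_isSplittingField (X ^ m - 1)
  have hn : Normal K (Lm K L M ⊔ K⟮ζ⟯ : IntermediateField K M) := inferInstance
  rw [Lm_sup_adjoin_zeta_eq_top K L M m] at hn
  exact Normal.of_algEquiv (IntermediateField.topEquiv : (⊤ : IntermediateField K M) ≃ₐ[K] M)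

include m in
theorem isGalois_top [IsGalois K L] : IsGalois K M := by
  have : IsGalois L M := IsCyclotomicExtension.isGalois {m} L M
  have : Algebra.IsSeparable K M := Algebra.IsSeparable.trans K L M
  have : Normal K M := normal_top K L M m
  exact ⟨⟩

include m in
theorem finiteDimensional_top [FiniteDimensional K L] : FiniteDimensional K M := by
  have : FiniteDimensional L M := IsCyclotomicExtension.finiteDimensional {m} L M
  exact Module.Finite.trans L M

/-- `chi` describes the action of `Gal(M/K)` on the distinguished primitive root. -/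
theorem chi_spec_zeta (σ : Gal(M/K)) :
    σ (IsCyclotomicExtension.zeta m L M) =
      IsCyclotomicExtension.zeta m L M ^ ((chi K L M m σ : (ZMod m)ˣ) : ZMod m).val :=
  ((IsCyclotomicExtension.zeta_spec m L M).autToPow_spec K σ).symm

/-- `chi` describes the action of `Gal(M/K)` on every `m`-th root of unity. -/
theorem chi_spec (σ : Gal(M/K)) {ζ : M} (hζ : ζ ^ m = 1) :
    σ ζ = ζ ^ ((chi K L M m σ : (ZMod m)ˣ) : ZMod m).val := by
  obtain ⟨i, -, rfl⟩ :=
    (IsCyclotomicExtension.zeta_spec m L M).eq_pow_of_pow_eq_one hζ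
  rw [map_pow, chi_spec_zeta K L M m σ, ← pow_mul, ← pow_mul, mul_comm]

theorem chi_eq_one_iff (σ : Gal(M/K)) :
    chi K L M m σ = 1 ↔
      σ (IsCyclotomicExtension.zeta m L M) = IsCyclotomicExtension.zeta m L M := by
  have hζ := IsCyclotomicExtension.zeta_spec m L M
  constructor
  · intro h
    have := chi_spec_zeta K L M m σ
    rw [h, Units.val_one, ZMod.val_one_eq_one_mod, ← pow_eq_pow_mod 1 hζ.pow_eq_one,
      pow_one] at this
    exact this
  · intro h
    have h1 := chi_spec_zeta K L M m σ
    rw [h] at h1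
    have h2 : ((chi K L M m σ : (ZMod m)ˣ) : ZMod m).val = (1 : ZMod m).val := by
      have hlt : ((chi K L M m σ : (ZMod m)ˣ) : ZMod m).val < m := ZMod.val_lt _
      have hlt1 : (1 : ZMod m).val < m := ZMod.val_lt _
      apply hζ.pow_inj hlt hlt1
      rw [← h1, ZMod.val_one_eq_one_mod, ← pow_eq_pow_mod 1 hζ.pow_eq_one, pow_one]
    exact Units.ext (ZMod.val_injective m h2)

theorem toProd_fst [Normal K L] (σ : Gal(M/K)) :
    (toProd K L M m σ).1 = AlgEquiv.restrictNormalHom L σ := rfl

theorem toProd_snd [Normal K L] (σ : Gal(M/K)) :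
    (toProd K L M m σ).2 = chi K L M m σ := rfl

theorem algebraMap_toProd_fst [Normal K L] (σ : Gal(M/K)) (y : L) :
    algebraMap L M ((toProd K L M m σ).1 y) = σ (algebraMap L M y) :=
  AlgEquiv.restrictNormal_commutes σ L y

theorem toProd_injective [Normal K L] : Function.Injective (toProd K L M m) := by
  have hζ := IsCyclotomicExtension.zeta_spec m L M
  set ζ := IsCyclotomicExtension.zeta m L M with hζdef
  rw [injective_iff_map_eq_one]
  intro σ hσ
  have h1 : (toProd K L M m σ).1 = 1 := congrArg Prod.fst hσ
  have h2 : chi K L M m σ = 1 := congrArg Prod.snd hσ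
  have hL : ∀ l : L, σ (algebraMap L M l) = algebraMap L M l := by
    intro l
    rw [← algebraMap_toProd_fst K L M m σ l, h1]
    rfl
  have hz : σ ζ = ζ := (chi_eq_one_iff K L M m σ).1 h2
  ext x
  have hx : x ∈ Algebra.adjoin L ({ζ} : Set M) := by
    rw [IsCyclotomicExtension.adjoin_primitive_root_eq_top hζ]
    exact Algebra.mem_top
  change σ x = x
  induction hx using Algebra.adjoin_induction with
  | mem y hy =>
    rw [Set.mem_singleton_iff] at hy
    rw [hy, hz]
  | algebraMap l => exact hL l
  | add y z _ _ hy hz => rw [map_add, hy, hz]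
  | mul y z _ _ hy hz => rw [map_mul, hy, hz]

theorem card_gal_top [FiniteDimensional K L] [IsGalois K L]
    (h : Irreducible (cyclotomic m L)) :
    Nat.card Gal(M/K) = Nat.card (Gal(L/K) × (ZMod m)ˣ) := by
  have : IsGalois K M := isGalois_top K L M m
  have : FiniteDimensional K M := finiteDimensional_top K L M m
  rw [Nat.card_prod, IsGalois.card_aut_eq_finrank, IsGalois.card_aut_eq_finrank,
    ← Module.finrank_mul_finrank K L M, IsCyclotomicExtension.finrank M h,
    Nat.card_eq_fintype_card, ZMod.card_units_eq_totient]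

theorem toProd_bijective [FiniteDimensional K L] [IsGalois K L]
    (h : Irreducible (cyclotomic m L)) : Function.Bijective (toProd K L M m) := by
  have : FiniteDimensional K M := finiteDimensional_top K L M m
  have : Finite Gal(M/K) := inferInstance
  have : Finite (Gal(L/K) × (ZMod m)ˣ) := inferInstance
  exact (Nat.bijective_iff_injective_and_card _).2
    ⟨toProd_injective K L M m, card_gal_top K L M m h⟩

/-- `Gal(L(ζ_m)/K) ≃ Gal(L/K) × (ℤ/m)ˣ` when the `m`-th cyclotomic polynomial is irreducible
over `L`. -/
noncomputable def prodEquiv [FiniteDimensional K L] [IsGalois K L]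
    (h : Irreducible (cyclotomic m L)) : Gal(M/K) ≃* Gal(L/K) × (ZMod m)ˣ :=
  MulEquiv.ofBijective (toProd K L M m) (toProd_bijective K L M m h)

theorem prodEquiv_apply [FiniteDimensional K L] [IsGalois K L]
    (h : Irreducible (cyclotomic m L)) (σ : Gal(M/K)) :
    prodEquiv K L M m h σ = toProd K L M m σ := rfl

theorem toProd_surjective [FiniteDimensional K L] [IsGalois K L]
    (h : Irreducible (cyclotomic m L)) : Function.Surjective (toProd K L M m) :=
  (toProd_bijective K L M m h).2

/-- Realising a prescribed pair `(g, u)` by an element of `Gal(M/K)`. -/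
theorem exists_toProd_eq [FiniteDimensional K L] [IsGalois K L]
    (h : Irreducible (cyclotomic m L)) (g : Gal(L/K)) (u : (ZMod m)ˣ) :
    ∃ σ : Gal(M/K), AlgEquiv.restrictNormalHom L σ = g ∧ chi K L M m σ = u := by
  obtain ⟨σ, hσ⟩ := toProd_surjective K L M m h (g, u)
  exact ⟨σ, congrArg Prod.fst hσ, congrArg Prod.snd hσ⟩

end Tower

end Fermat.Agent.Lib.CFT.Unram.CrossingFields
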