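/-
helper53 (P-CFT, S14 fast track, WP-A5).  The cyclotomic character `chi` of `Gal(M/K)`,
`M = L(ζ_m)` (`chi_spec` is in `Tower.lean`): fixed fields of subgroups meeting its kernel
trivially, and its value on Frobenius elements.
-/
import Mathlib
import Fermat.Agent.Lib.CFT.Unram.CrossingFields.Defs
import Fermat.Agent.Lib.CFT.Unram.CrossingFields.Tower
import Fermat.Agent.Lib.CFT.Kummer.CyclotomicAuxField

set_option autoImplicit false

namespace Fermat.Agent.Lib.CFT.Unram.CrossingFields

open NumberField IntermediateField Polynomial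

section Fields

variable (K L M : Type*) [Field K] [Field L] [Field M] [Algebra K L] [Algebra L M] [Algebra K M]
  [IsScalarTower K L M] (m : ℕ) [NeZero m] [IsCyclotomicExtension {m} L M]

/-- (F2) The kernel of `chi` is the subgroup fixing `ζ_m`; a subgroup `H` meeting it trivially has
`F(ζ_m) = M` for its fixed field `F`. -/
theorem isCyclotomicExtension_fixedField [FiniteDimensional K M] [IsGalois K M]
    (H : Subgroup Gal(M/K)) (hH : H ⊓ (chi K L M m).ker = ⊥) :
    IsCyclotomicExtension {m} (fixedField H) M := by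
  have hz := IsCyclotomicExtension.zeta_spec m L M
  set ζ := IsCyclotomicExtension.zeta m L M with hζdef
  set F : IntermediateField K M := fixedField H with hF
  -- the field `F(ζ)` is everything
  have htop : F ⊔ K⟮ζ⟯ = ⊤ := by
    have h1 : (F ⊔ K⟮ζ⟯).fixingSubgroup = ⊥ := by
      rw [IntermediateField.fixingSubgroup_sup, hF, IntermediateField.fixingSubgroup_fixedField,
        eq_bot_iff, ← hH]
      intro σ hσ
      refine ⟨hσ.1, ?_⟩
      show σ ∈ (chi K L M m).ker
      rw [MonoidHom.mem_ker, chi_eq_one_iff]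
      exact (IntermediateField.mem_fixingSubgroup_iff _ σ).mp hσ.2 ζ
        (IntermediateField.mem_adjoin_simple_self K ζ)
    rw [← IsGalois.fixedField_fixingSubgroup (F ⊔ K⟮ζ⟯), h1, IntermediateField.fixedField_bot]
  have htop' : IntermediateField.adjoin F {ζ} = ⊤ := by
    apply IntermediateField.restrictScalars_injective K
    rw [IntermediateField.restrictScalars_adjoin_eq_sup, htop, IntermediateField.restrictScalars_top]
  have halg : IsAlgebraic F ζ := by
    have : IsIntegral F ζ := (hz.isIntegral (NeZero.pos m)).tower_top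
    exact this.isAlgebraic
  have htop'' : Algebra.adjoin F {ζ} = ⊤ := by
    rw [← IntermediateField.adjoin_simple_toSubalgebra_of_isAlgebraic halg, htop',
      IntermediateField.top_toSubalgebra]
  rw [IsCyclotomicExtension.iff_singleton]
  refine ⟨⟨ζ, hz⟩, fun x => ?_⟩
  have hx : x ∈ Algebra.adjoin F {ζ} := by rw [htop'']; exact Algebra.mem_top
  refine Algebra.adjoin_mono ?_ hx
  intro y hy
  rw [Set.mem_singleton_iff] at hy
  rw [hy]
  exact hz.pow_eq_one

end Fields

section NumberFields

variable (K L M : Type*) [Field K] [NumberField K] [Field L] [Field M] [NumberField M]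
  [Algebra K L] [Algebra L M] [Algebra K M] [IsScalarTower K L M] (m : ℕ) [NeZero m]
  [IsCyclotomicExtension {m} L M] [IsGalois K M]

/-- (F3) The cyclotomic character of a Frobenius element at a prime not containing `m` is the
class of the absolute norm of the prime below. -/
theorem chi_of_isArithFrobAt {σ : Gal(M/K)} {P : Ideal (𝓞 M)} (hm : (m : 𝓞 M) ∉ P)
    (hσ : IsArithFrobAt (𝓞 K) σ P) :
    ((chi K L M m σ : (ZMod m)ˣ) : ZMod m) = (Ideal.absNorm (P.under (𝓞 K)) : ZMod m) := by
  have hz := IsCyclotomicExtension.zeta_spec m L M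
  have h1 := chi_spec K L M m σ hz.pow_eq_one
  have h2 := CyclotomicAux.apply_eq_pow_card_of_isArithFrobAt m M hm hσ hz.pow_eq_one
  rw [h1] at h2
  rw [← pow_mod_orderOf _ (Nat.card _), ← hz.eq_orderOf] at h2
  have h3 := hz.pow_inj (ZMod.val_lt _) (Nat.mod_lt _ (NeZero.pos m)) h2
  have h4 := congrArg (fun k : ℕ => (k : ZMod m)) h3
  have h5 : Nat.card (𝓞 K ⧸ P.under (𝓞 K)) = Ideal.absNorm (P.under (𝓞 K)) := by
    rw [Ideal.absNorm_apply, Submodule.cardQuot_apply]
  rw [← h5]
  simpa using h4

/-- (F4) A prime of `M` whose norm down to `K` is coprime to `m` does not contain `m`. -/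
theorem natCast_notMem_of_coprime_absNorm (P : Ideal (𝓞 M)) [P.IsPrime]
    (h : Nat.Coprime m (Ideal.absNorm (P.under (𝓞 K)))) : (m : 𝓞 M) ∉ P := by
  intro hmP
  have hp : (P.under (𝓞 K)).IsPrime := Ideal.IsPrime.under (𝓞 K) P
  have h1 : (m : 𝓞 K) ∈ P.under (𝓞 K) := by
    show algebraMap (𝓞 K) (𝓞 M) (m : 𝓞 K) ∈ P
    rwa [map_natCast]
  have h2 : (Ideal.absNorm (P.under (𝓞 K)) : 𝓞 K) ∈ P.under (𝓞 K) := Ideal.absNorm_mem _
  obtain ⟨a, b, hab⟩ := (Nat.isCoprime_iff_coprime.mpr h)
  have h3 : ((a : 𝓞 K) * (m : 𝓞 K) + (b : 𝓞 K) * (Ideal.absNorm (P.under (𝓞 K)) : 𝓞 K)) = 1 := by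
    have := congrArg (fun z : ℤ => (z : 𝓞 K)) hab
    simpa using this
  apply hp.ne_top
  rw [Ideal.eq_top_iff_one, ← h3]
  exact Ideal.add_mem _ (Ideal.mul_mem_left _ _ h1) (Ideal.mul_mem_left _ _ h2)

end NumberFields

end Fermat.Agent.Lib.CFT.Unram.CrossingFields
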