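/-
helper40 (P-CFT, S14 fast track, WP-A5 packaging).  From intermediate fields of a big Galois
extension `M/K` to the bundled auxiliary extensions `AuxExt K L p` of `Unram/CrossingDefs.lean`.
-/
import Mathlib
import Fermat.Agent.Lib.CFT.Unram.CrossingDefs

set_option autoImplicit false
set_option linter.style.haveILetI false
set_option linter.unusedSectionVars false

namespace Fermat.Agent.Lib.CFT.Unram.CrossingFields.Package

open NumberField IntermediateField
open scoped nonZeroDivisors

variable (K L M : Type) [Field K] [Field L] [Field M] [Algebra K L] [Algebra K M] [Algebra L M]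
  [IsScalarTower K L M]

/-- The image of `L` in `M`, as an intermediate field of `M/K`. -/
def imgL : IntermediateField K M := (IsScalarTower.toAlgHom K L M).fieldRange

variable {K L M}

lemma algebraMap_mem_imgL (x : L) : algebraMap L M x ∈ imgL K L M := ⟨x, rfl⟩

/-- The compositum `L·F` inside `M`. -/
def comp (F : IntermediateField K M) : IntermediateField K M := imgL K L M ⊔ F

lemma le_comp (F : IntermediateField K M) : F ≤ comp (L := L) F := le_sup_right

lemma imgL_le_comp (F : IntermediateField K M) : imgL K L M ≤ comp (L := L) F := le_sup_left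

/-- The inclusion algebra structure between nested intermediate fields. -/
@[reducible] def inclAlgebra {F₁ F₂ : IntermediateField K M} (h : F₁ ≤ F₂) : Algebra ↥F₁ ↥F₂ :=
  (IntermediateField.inclusion h).toRingHom.toAlgebra

lemma inclAlgebra_algebraMap_coe {F₁ F₂ : IntermediateField K M} (h : F₁ ≤ F₂) (x : ↥F₁) :
    ((@algebraMap ↥F₁ ↥F₂ _ _ (inclAlgebra h) x : ↥F₂) : M) = (x : M) := rfl

theorem isScalarTower_incl {F₁ F₂ : IntermediateField K M} (h : F₁ ≤ F₂) :
    @IsScalarTower K ↥F₁ ↥F₂ _ (inclAlgebra h).toSMul _ :=
  letI := inclAlgebra h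
  IsScalarTower.of_algebraMap_eq fun _ => rfl

theorem isScalarTower_incl_top {F₁ F₂ : IntermediateField K M} (h : F₁ ≤ F₂) :
    @IsScalarTower ↥F₁ ↥F₂ M (inclAlgebra h).toSMul _ _ :=
  letI := inclAlgebra h
  IsScalarTower.of_algebraMap_eq fun _ => rfl

/-- The map of `L` into the compositum. -/
def toComp (F : IntermediateField K M) : L →ₐ[K] ↥(comp (L := L) F) :=
  (IsScalarTower.toAlgHom K L M).codRestrict (comp (L := L) F).toSubalgebra
    fun x => imgL_le_comp F (algebraMap_mem_imgL x)

lemma toComp_coe (F : IntermediateField K M) (x : L) :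
    ((toComp F x : ↥(comp (L := L) F)) : M) = algebraMap L M x := rfl

/-- The `L`-algebra structure on the compositum. -/
@[reducible] def compAlgebra (F : IntermediateField K M) : Algebra L ↥(comp (L := L) F) :=
  (toComp F).toRingHom.toAlgebra

section Galois

variable [IsGalois K L] [FiniteDimensional K L] (F : IntermediateField K M)

/-- `L` inside the compositum. -/
def resL : IntermediateField K ↥(comp (L := L) F) :=
  IntermediateField.restrict (imgL_le_comp (L := L) F)

/-- `F` inside the compositum. -/
def resF : IntermediateField K ↥(comp (L := L) F) :=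
  IntermediateField.restrict (le_comp (L := L) F)

lemma resL_sup_resF : resL (L := L) F ⊔ resF (L := L) F = ⊤ := by
  rw [← lift_inj, lift_top, lift_sup, resL, resF, lift_restrict, lift_restrict]
  rfl

/-- `L` is isomorphic to its copy in the compositum. -/
noncomputable def equivResL : L ≃ₐ[K] ↥(resL (L := L) F) :=
  (AlgEquiv.ofInjectiveField (IsScalarTower.toAlgHom K L M)).trans
    (IntermediateField.restrictAlgEquiv (imgL_le_comp (L := L) F))

instance : IsGalois K ↥(resL (L := L) F) := IsGalois.of_algEquiv (equivResL F)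

instance : FiniteDimensional K ↥(resL (L := L) F) :=
  (equivResL F).toLinearEquiv.finiteDimensional

theorem isGalois_comp_resF : IsGalois ↥(resF (L := L) F) ↥(comp (L := L) F) :=
  IsGalois.sup_right (resL (L := L) F) (resF (L := L) F) (resL_sup_resF F)

/-- `F` is isomorphic to its copy in the compositum. -/
noncomputable def equivResF : ↥F ≃ₐ[K] ↥(resF (L := L) F) :=
  IntermediateField.restrictAlgEquiv (le_comp (L := L) F)

lemma equivResF_coe (x : ↥F) : ((equivResF (L := L) F x : ↥(comp (L := L) F)) : M) = x := rfl

lemma comp_algebraMap_equivResF :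
    (algebraMap ↥(resF (L := L) F) ↥(comp (L := L) F)).comp
        ((equivResF (L := L) F : ↥F ≃+* ↥(resF (L := L) F)) : ↥F →+* ↥(resF (L := L) F)) =
      @algebraMap ↥F ↥(comp (L := L) F) _ _ (inclAlgebra (le_comp (L := L) F)) := by
  ext x
  rfl

/-- The compositum is Galois over `F` (for the inclusion algebra structure). -/
theorem isGalois_comp :
    @IsGalois ↥F _ ↥(comp (L := L) F) _ (inclAlgebra (le_comp (L := L) F)) := by
  letI := inclAlgebra (le_comp (L := L) F)
  haveI := isGalois_comp_resF (L := L) F
  refine IsGalois.of_equiv_equiv (F := ↥(resF (L := L) F)) (E := ↥(comp (L := L) F))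
    (f := ((equivResF (L := L) F).symm : ↥(resF (L := L) F) ≃+* ↥F))
    (g := RingEquiv.refl _) ?_
  ext x
  obtain ⟨y, rfl⟩ := (equivResF (L := L) F).surjective x
  simp only [RingHom.comp_apply]
  erw [AlgEquiv.symm_apply_apply]
  rfl

/-- The degree of the compositum over `F` when `L` and `F` are disjoint. -/
theorem finrank_comp (hdisj : imgL K L M ⊓ F = ⊥) [FiniteDimensional K ↥F] :
    @Module.finrank ↥F ↥(comp (L := L) F) _ _ (inclAlgebra (le_comp (L := L) F)).toModule =
      Module.finrank K L := by
  letI := inclAlgebra (le_comp (L := L) F)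
  have hinf : resL (L := L) F ⊓ resF (L := L) F = ⊥ := by
    rw [← lift_inj, lift_bot, lift_inf, resL, resF, lift_restrict, lift_restrict]
    exact hdisj
  haveI : FiniteDimensional K ↥(resF (L := L) F) :=
    (equivResF (L := L) F).toLinearEquiv.finiteDimensional
  have hLD : (resL (L := L) F).LinearDisjoint (resF (L := L) F) :=
    IntermediateField.LinearDisjoint.of_inf_eq_bot hinf
  have h1 := hLD.finrank_right_eq_finrank (resL_sup_resF F)
  have h2 : Module.finrank K ↥(resL (L := L) F) = Module.finrank K L :=
    (equivResL F).toLinearEquiv.finrank_eq.symm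
  rw [← h2, ← h1]
  refine Algebra.finrank_eq_of_equiv_equiv
    ((equivResF (L := L) F : ↥F ≃+* ↥(resF (L := L) F))) (RingEquiv.refl _) ?_
  ext x
  rfl

end Galois

section ResInj

variable (F : IntermediateField K M)

lemma comp_eq_adjoin :
    comp (L := L) F = IntermediateField.adjoin K ((imgL K L M : Set M) ∪ (F : Set M)) := by
  rw [IntermediateField.adjoin_union, IntermediateField.adjoin_self,
    IntermediateField.adjoin_self]
  rfl

/-- An automorphism of the compositum over `F` fixing the image of `L` is trivial. -/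
theorem res_inj_comp :
    letI := inclAlgebra (le_comp (L := L) F)
    ∀ τ : Gal(↥(comp (L := L) F)/↥F),
      (∀ x : L, τ (toComp F x) = toComp F x) → τ = 1 := by
  letI := inclAlgebra (le_comp (L := L) F)
  haveI := isScalarTower_incl (le_comp (L := L) F)
  intro τ hτ
  have key : ((τ.restrictScalars K : ↥(comp (L := L) F) ≃ₐ[K] ↥(comp (L := L) F)) :
      ↥(comp (L := L) F) →ₐ[K] ↥(comp (L := L) F)) = AlgHom.id K _ := by
    refine IntermediateField.algHom_ext_of_eq_adjoin K (comp_eq_adjoin (L := L) F) ?_
    intro x hx
    rcases hx with hx | hx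
    · obtain ⟨y, rfl⟩ := hx
      exact hτ y
    · exact τ.commutes ⟨x, hx⟩
  ext x
  exact congrArg Subtype.val (DFunLike.congr_fun key x)

end ResInj

section Bundle

variable [NumberField K] [NumberField L] [NumberField M] [IsGalois K L]

/-- The auxiliary extension `L·F / F` attached to an intermediate field `F` of `M/K` which is
disjoint from `L`. -/
noncomputable def auxExt (p : ℕ) (F : IntermediateField K M) (hdeg : Module.finrank K L = p)
    (hdisj : imgL K L M ⊓ F = ⊥) : AuxExt K L p :=
  letI : Algebra ↥F ↥(comp (L := L) F) := inclAlgebra (le_comp (L := L) F)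
  letI : Algebra L ↥(comp (L := L) F) := compAlgebra (L := L) F
  { F := ↥F
    E := ↥(comp (L := L) F)
    instTowerKFE := isScalarTower_incl (le_comp (L := L) F)
    instTowerKLE := IsScalarTower.of_algebraMap_eq fun x =>
      Subtype.ext (IsScalarTower.algebraMap_apply K L M x)
    instGal := isGalois_comp (L := L) F
    deg := (finrank_comp (L := L) F hdisj).trans hdeg
    res_inj := res_inj_comp (L := L) F }

variable (p : ℕ) (F : IntermediateField K M) (hdeg : Module.finrank K L = p)
  (hdisj : imgL K L M ⊓ F = ⊥)

@[simp] lemma auxExt_F : (auxExt p F hdeg hdisj).F = ↥F := rfl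

@[simp] lemma auxExt_E : (auxExt p F hdeg hdisj).E = ↥(comp (L := L) F) := rfl

/-- The base field of the auxiliary extension sits inside `M`. -/
noncomputable instance auxExt_algebra_F_M : Algebra (auxExt p F hdeg hdisj).F M :=
  inferInstanceAs (Algebra ↥F M)

/-- The top field of the auxiliary extension sits inside `M`. -/
noncomputable instance auxExt_algebra_E_M : Algebra (auxExt p F hdeg hdisj).E M :=
  inferInstanceAs (Algebra ↥(comp (L := L) F) M)

lemma auxExt_algebraMap_F_M (x : ↥F) :
    algebraMap (auxExt p F hdeg hdisj).F M x = (x : M) := rfl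

lemma auxExt_algebraMap_E_M (x : ↥(comp (L := L) F)) :
    algebraMap (auxExt p F hdeg hdisj).E M x = (x : M) := rfl

lemma auxExt_algebraMap_FE (x : ↥F) :
    algebraMap (auxExt p F hdeg hdisj).E M
      (algebraMap (auxExt p F hdeg hdisj).F (auxExt p F hdeg hdisj).E x) = (x : M) := rfl

lemma auxExt_algebraMap_LE (x : L) :
    algebraMap (auxExt p F hdeg hdisj).E M (algebraMap L (auxExt p F hdeg hdisj).E x) =
      algebraMap L M x := rfl

/-- The top field of the auxiliary extension sits inside `M`, compatibly with `F`. -/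
instance auxExt_isScalarTower_top :
    IsScalarTower (auxExt p F hdeg hdisj).F (auxExt p F hdeg hdisj).E M :=
  IsScalarTower.of_algebraMap_eq fun _ => rfl

/-- The top field of the auxiliary extension sits inside `M`, compatibly with `L`. -/
instance auxExt_isScalarTower_top_L : IsScalarTower L (auxExt p F hdeg hdisj).E M :=
  IsScalarTower.of_algebraMap_eq fun _ => rfl

/-- Compatibility with the base field `K`. -/
instance auxExt_isScalarTower_K_F_M : IsScalarTower K (auxExt p F hdeg hdisj).F M :=
  inferInstanceAs (IsScalarTower K ↥F M)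

/-- The inclusion algebra between the base fields of two packaged auxiliary extensions. -/
@[reducible] noncomputable def auxExtAlgebraOfLe {F₁ F₂ : IntermediateField K M} (h : F₁ ≤ F₂)
    (hd₁ : imgL K L M ⊓ F₁ = ⊥) (hd₂ : imgL K L M ⊓ F₂ = ⊥) :
    Algebra (auxExt p F₁ hdeg hd₁).F (auxExt p F₂ hdeg hd₂).F :=
  inclAlgebra h

theorem auxExt_isScalarTower_of_le {F₁ F₂ : IntermediateField K M} (h : F₁ ≤ F₂)
    (hd₁ : imgL K L M ⊓ F₁ = ⊥) (hd₂ : imgL K L M ⊓ F₂ = ⊥) :
    @IsScalarTower K (auxExt p F₁ hdeg hd₁).F (auxExt p F₂ hdeg hd₂).F _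
      (auxExtAlgebraOfLe p hdeg h hd₁ hd₂).toSMul _ :=
  isScalarTower_incl h

lemma auxExtAlgebraOfLe_algebraMap {F₁ F₂ : IntermediateField K M} (h : F₁ ≤ F₂)
    (hd₁ : imgL K L M ⊓ F₁ = ⊥) (hd₂ : imgL K L M ⊓ F₂ = ⊥) (x : ↥F₁) :
    algebraMap (auxExt p F₂ hdeg hd₂).F M
      (@algebraMap (auxExt p F₁ hdeg hd₁).F (auxExt p F₂ hdeg hd₂).F _ _
        (auxExtAlgebraOfLe p hdeg h hd₁ hd₂) x) = (x : M) := rfl

end Bundle

section Generic

variable {K L : Type} [Field K] [NumberField K] [Field L] [NumberField L] [Algebra K L]
  [IsGalois K L] {p : ℕ}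

/-- The base field of an auxiliary extension of a totally complex field is totally complex. -/
theorem isTotallyComplex_auxExt (A : AuxExt K L p) (hK : IsTotallyComplex K) :
    IsTotallyComplex A.F :=
  haveI := hK
  NumberField.isTotallyComplex_of_algebra K A.F

/-- An auxiliary extension of an everywhere unramified extension is everywhere unramified. -/
theorem isUnramifiedEverywhere_auxExt (A : AuxExt K L p) (hUBC : UnramifiedBaseChange)
    (hur : IsUnramifiedEverywhere K L) : IsUnramifiedEverywhere A.F A.E :=
  hUBC K L A.F A.E A.res_inj hur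

/-- The (CYC) property of an auxiliary extension whose top field sits inside a cyclotomic
extension `M` of its base field. -/
theorem isCyc_auxExt (A : AuxExt K L p) (hCyc : CycloReciprocity p)
    (hUBC : UnramifiedBaseChange) (hK : IsTotallyComplex K) (hur : IsUnramifiedEverywhere K L)
    (M : Type) [Field M] [NumberField M] [Algebra A.F M] [Algebra A.E M]
    [IsScalarTower A.F A.E M] (m : ℕ) [NeZero m] [IsCyclotomicExtension {m} A.F M] :
    A.IsCyc m := by
  intro φ hφ x hx hcop
  exact hCyc A.F A.E M m (isTotallyComplex_auxExt A hK) A.deg (isUnramifiedEverywhere_auxExt A hUBC hur)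
    φ hφ x hx hcop

end Generic

end Fermat.Agent.Lib.CFT.Unram.CrossingFields.Package

/-! ### A group-theoretic criterion for disjointness -/

namespace Fermat.Agent.Lib.CFT.Unram.CrossingFields.Package

open NumberField IntermediateField

/-- If the restriction `Gal(M/F) → Gal(L/K)` is onto then `L ∩ F = K` inside `M`. -/
theorem imgL_inf_eq_bot (K L M : Type) [Field K] [Field L] [Field M] [Algebra K L] [Algebra L M]
    [Algebra K M] [IsScalarTower K L M] [IsGalois K L] [FiniteDimensional K L]
    (F : IntermediateField K M)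
    (hF : F.fixingSubgroup.map (AlgEquiv.restrictNormalHom L) = ⊤) : imgL K L M ⊓ F = ⊥ := by
  rw [eq_bot_iff]
  rintro x ⟨hxL, hxF⟩
  obtain ⟨y, rfl⟩ := hxL
  have hy : y ∈ (⊥ : IntermediateField K L) := by
    rw [IsGalois.mem_bot_iff_fixed]
    intro g
    have hg : g ∈ F.fixingSubgroup.map (AlgEquiv.restrictNormalHom L) := hF ▸ Subgroup.mem_top g
    obtain ⟨σ, hσ, rfl⟩ := hg
    apply (algebraMap L M).injective
    have h1 : algebraMap L M (AlgEquiv.restrictNormalHom L σ y) = σ (algebraMap L M y) :=
      AlgEquiv.restrictNormal_commutes σ L y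
    rw [h1]
    exact (IntermediateField.mem_fixingSubgroup_iff F σ).mp hσ _ hxF
  obtain ⟨z, rfl⟩ := IntermediateField.mem_bot.mp hy
  show algebraMap L M (algebraMap K L z) ∈ (⊥ : IntermediateField K M)
  rw [← IsScalarTower.algebraMap_apply]
  exact IntermediateField.algebraMap_mem _ z

end Fermat.Agent.Lib.CFT.Unram.CrossingFields.Package
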