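/-
helper80 (P-CFT, S14 fast track, WP-A5 "crossing fields").  Packaging: an intermediate field `F`
of `M/K` (where `K ⊆ L ⊆ M`, `L/K` and `M/K` Galois) such that `Gal(M/F) → Gal(L/K)` is onto
gives an auxiliary extension `AuxExt K L p` with base field `↥F` and top field `F·L`
(realised as `IntermediateField.extendScalars (F ≤ F ⊔ L)`, an intermediate field of `M/F`).
-/
import Mathlib
import Fermat.Agent.Lib.CFT.Unram.CrossingDefs
import Fermat.Agent.Lib.CFT.Unram.CrossingFields.Defs

set_option autoImplicit false
set_option linter.unusedSectionVars false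

namespace Fermat.Agent.Lib.CFT.Unram.CrossingFields

open NumberField IntermediateField

section Fields

variable (K L M : Type*) [Field K] [Field L] [Field M] [Algebra K L] [Algebra L M] [Algebra K M]
  [IsScalarTower K L M]

/-- The compositum `F·L` as an intermediate field of `M/F`. -/
abbrev topOf (F : IntermediateField K M) : IntermediateField F M :=
  extendScalars (le_sup_left : F ≤ F ⊔ Lm K L M)

variable {K L M}

theorem mem_topOf {F : IntermediateField K M} {x : M} :
    x ∈ topOf K L M F ↔ x ∈ F ⊔ Lm K L M :=
  mem_extendScalars _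

theorem algebraMap_mem_topOf (F : IntermediateField K M) (y : L) :
    algebraMap L M y ∈ topOf K L M F :=
  mem_topOf.2 ((le_sup_right : Lm K L M ≤ F ⊔ Lm K L M) (algebraMap_mem_Lm K L M y))

variable (K L M)

/-- The `L`-algebra structure on `F·L`. -/
noncomputable instance algebraTopOf (F : IntermediateField K M) : Algebra L (topOf K L M F) :=
  RingHom.toAlgebra
    { toFun := fun y => ⟨algebraMap L M y, algebraMap_mem_topOf F y⟩
      map_one' := by ext; simp
      map_mul' := fun a b => by ext; simp
      map_zero' := by ext; simp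
      map_add' := fun a b => by ext; simp }

variable {K L M}

@[simp] theorem coe_algebraMap_topOf (F : IntermediateField K M) (y : L) :
    ((algebraMap L (topOf K L M F) y : topOf K L M F) : M) = algebraMap L M y := rfl

instance isScalarTower_topOf_M (F : IntermediateField K M) :
    IsScalarTower L (topOf K L M F) M :=
  IsScalarTower.of_algebraMap_eq fun _ => rfl

instance isScalarTower_K_L_topOf (F : IntermediateField K M) :
    IsScalarTower K L (topOf K L M F) :=
  IsScalarTower.of_algebraMap_eq fun x => by
    ext
    rw [coe_algebraMap_topOf, ← IsScalarTower.algebraMap_apply]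
    rfl

instance isScalarTower_K_F_topOf (F : IntermediateField K M) :
    IsScalarTower K F (topOf K L M F) :=
  IsScalarTower.of_algebraMap_eq fun x => by
    ext
    rfl

end Fields

section Galois

variable {K L M : Type*} [Field K] [Field L] [Field M] [Algebra K L] [Algebra L M] [Algebra K M]
  [IsScalarTower K L M] [IsGalois K L] [IsGalois K M]

theorem map_mem_sup_Lm (F : IntermediateField K M) (σ : Gal(M/F)) {x : M}
    (hx : x ∈ F ⊔ Lm K L M) : σ x ∈ F ⊔ Lm K L M := by
  let σ' : M ≃ₐ[K] M := σ.restrictScalars K
  have h1 : (F ⊔ Lm K L M).map (σ' : M →ₐ[K] M) ≤ F ⊔ Lm K L M := by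
    rw [IntermediateField.map_sup]
    apply sup_le_sup
    · rintro _ ⟨y, hy, rfl⟩
      have : σ' y = y := σ.commutes ⟨y, hy⟩
      show σ' y ∈ F
      rw [this]
      exact hy
    · rintro _ ⟨y, hy, rfl⟩
      obtain ⟨z, rfl⟩ := (mem_Lm K L M).1 hy
      show σ' (algebraMap L M z) ∈ Lm K L M
      rw [← AlgEquiv.restrictNormal_commutes σ' L z]
      exact algebraMap_mem_Lm K L M _
  exact h1 ⟨x, hx, rfl⟩

instance isGalois_topOf (F : IntermediateField K M) : IsGalois F (topOf K L M F) := by
  have hM : IsGalois F M := IsGalois.tower_top_intermediateField F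
  have hn : Normal F (topOf K L M F) := by
    rw [normal_iff_forall_map_le']
    rintro σ _ ⟨x, hx, rfl⟩
    exact mem_topOf.2 (map_mem_sup_Lm F σ (mem_topOf.1 hx))
  exact ⟨⟩

/-- An `F`-automorphism of `F·L` fixing the image of `L` pointwise is trivial. -/
theorem eq_one_of_fix_L (F : IntermediateField K M) (τ : Gal(topOf K L M F/F))
    (h : ∀ x : L, τ (algebraMap L (topOf K L M F) x) = algebraMap L (topOf K L M F) x) :
    τ = 1 := by
  have hM : IsGalois F M := IsGalois.tower_top_intermediateField F
  -- lift `τ` to `M`
  obtain ⟨τ', hτ'⟩ := AlgEquiv.restrictNormalHom_surjective (F := F) (K₁ := topOf K L M F) M τ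
  have hτ'x : ∀ y : topOf K L M F, τ' (y : M) = ((τ y : topOf K L M F) : M) := by
    intro y
    rw [← hτ']
    exact (AlgEquiv.restrictNormal_commutes τ' (topOf K L M F) y).symm
  let σ' : M ≃ₐ[K] M := τ'.restrictScalars K
  have hmem : σ' ∈ (F ⊔ Lm K L M).fixingSubgroup := by
    rw [fixingSubgroup_sup, Subgroup.mem_inf]
    constructor
    · rw [IntermediateField.mem_fixingSubgroup_iff]
      intro y hy
      exact τ'.commutes ⟨y, hy⟩
    · rw [IntermediateField.mem_fixingSubgroup_iff]
      intro y hy
      obtain ⟨z, rfl⟩ := (mem_Lm K L M).1 hy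
      have h1 := hτ'x (algebraMap L (topOf K L M F) z)
      rw [h z] at h1
      exact h1
  ext y
  have h2 := (IntermediateField.mem_fixingSubgroup_iff _ _).1 hmem (y : M) (mem_topOf.1 y.2)
  have h3 := hτ'x y
  show ((τ y : topOf K L M F) : M) = ((y : topOf K L M F) : M)
  rw [← h3]
  exact h2

variable (K L M) in
/-- Restriction `Gal(F·L/F) → Gal(L/K)`. -/
noncomputable def resL (F : IntermediateField K M) : Gal(topOf K L M F/F) →* Gal(L/K) :=
  (AlgEquiv.restrictNormalHom L).comp (AlgEquiv.restrictScalarsHom K)

theorem resL_commutes (F : IntermediateField K M) (τ : Gal(topOf K L M F/F)) (x : L) :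
    algebraMap L (topOf K L M F) (resL K L M F τ x) = τ (algebraMap L (topOf K L M F) x) :=
  AlgEquiv.restrictNormal_commutes (AlgEquiv.restrictScalars K τ) L x

theorem resL_injective (F : IntermediateField K M) : Function.Injective (resL K L M F) := by
  rw [injective_iff_map_eq_one]
  intro τ hτ
  apply eq_one_of_fix_L
  intro x
  rw [← resL_commutes, hτ]
  rfl

theorem resL_surjective (F : IntermediateField K M)
    (hF : F.fixingSubgroup.map (AlgEquiv.restrictNormalHom L) = ⊤) :
    Function.Surjective (resL K L M F) := by
  intro g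
  have hg : g ∈ F.fixingSubgroup.map (AlgEquiv.restrictNormalHom L) := by rw [hF]; trivial
  obtain ⟨σ, hσF, rfl⟩ := hg
  have hM : IsGalois F M := IsGalois.tower_top_intermediateField F
  -- `σ` as an `F`-automorphism of `M`, then restricted to `F·L`
  let σF : Gal(M/F) := fixingSubgroupEquiv F ⟨σ, hσF⟩
  have hσF' : ∀ y : M, σF y = σ y := fun y => rfl
  refine ⟨AlgEquiv.restrictNormalHom (topOf K L M F) σF, ?_⟩
  ext x
  apply (algebraMap L M).injective
  have e1 : algebraMap L M (AlgEquiv.restrictNormalHom L σ x) = σ (algebraMap L M x) :=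
    AlgEquiv.restrictNormal_commutes σ L x
  rw [e1]
  have h1 := resL_commutes F (AlgEquiv.restrictNormalHom (topOf K L M F) σF) x
  have h2 := congrArg (fun y : topOf K L M F => (y : M)) h1
  simp only [coe_algebraMap_topOf] at h2
  rw [h2]
  have h3 : ((AlgEquiv.restrictNormalHom (topOf K L M F) σF
      (algebraMap L (topOf K L M F) x) : topOf K L M F) : M) =
      σF ((algebraMap L (topOf K L M F) x : topOf K L M F) : M) :=
    AlgEquiv.restrictNormal_commutes σF (topOf K L M F) (algebraMap L (topOf K L M F) x)
  rw [h3, hσF', coe_algebraMap_topOf]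

theorem finrank_topOf [FiniteDimensional K L] [FiniteDimensional K M] (F : IntermediateField K M)
    (hF : F.fixingSubgroup.map (AlgEquiv.restrictNormalHom L) = ⊤) :
    Module.finrank F (topOf K L M F) = Module.finrank K L := by
  have : FiniteDimensional F M := IntermediateField.finiteDimensional_right F
  have : FiniteDimensional F (topOf K L M F) := inferInstance
  rw [← IsGalois.card_aut_eq_finrank, ← IsGalois.card_aut_eq_finrank]
  exact Nat.card_eq_of_bijective _ ⟨resL_injective F, resL_surjective F hF⟩

end Galois

section Aux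

variable (K L M : Type) [Field K] [NumberField K] [Field L] [NumberField L] [Field M]
  [NumberField M] [Algebra K L] [Algebra L M] [Algebra K M] [IsScalarTower K L M]
  [IsGalois K L] [IsGalois K M]

/-- The auxiliary extension `F·L / F` attached to an intermediate field `F` of `M/K` such that
`Gal(M/F) → Gal(L/K)` is onto. -/
@[reducible] noncomputable def auxExt (p : ℕ) (hdeg : Module.finrank K L = p)
    (F : IntermediateField K M)
    (hF : F.fixingSubgroup.map (AlgEquiv.restrictNormalHom L) = ⊤) : AuxExt K L p where
  F := F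
  E := topOf K L M F
  deg := (finrank_topOf F hF).trans hdeg
  res_inj := eq_one_of_fix_L F

end Aux

section LE

variable {K M : Type*} [Field K] [Field M] [Algebra K M]

/-- The algebra structure `F₁ → F` for intermediate fields `F₁ ≤ F`. -/
@[reducible] noncomputable def algOfLE {F₁ F : IntermediateField K M} (h : F₁ ≤ F) :
    Algebra F₁ F :=
  (IntermediateField.inclusion h).toRingHom.toAlgebra

theorem isScalarTower_of_le {F₁ F : IntermediateField K M} (h : F₁ ≤ F) :
    letI := algOfLE h
    IsScalarTower K F₁ F :=
  letI := algOfLE h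
  IsScalarTower.of_algebraMap_eq fun _ => rfl

theorem isScalarTower_of_le_top {F₁ F : IntermediateField K M} (h : F₁ ≤ F) :
    letI := algOfLE h
    IsScalarTower F₁ F M :=
  letI := algOfLE h
  IsScalarTower.of_algebraMap_eq fun _ => rfl

end LE

end Fermat.Agent.Lib.CFT.Unram.CrossingFields
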