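/-
helper80 (P-CFT, S14 fast track, WP-A5 "crossing fields").  Crossing data for two primes inside a
given cyclotomic extension `M = L(ζ_m)`, `m = ∏ n i` a product of pairwise coprime integers, four
of which (`n j₁, n j₁', n j₂, n j₂'`) are such that the norm of `𝔭₁` (resp. `𝔭₂`) has order
divisible by `p` modulo `n j₁, n j₁'` (resp. `n j₂, n j₂'`).
-/
import Mathlib
import Fermat.Agent.Lib.CFT.Unram.CrossingDefs
import Fermat.Agent.Lib.CFT.Unram.CrossingFields.OnePrime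
import Fermat.Agent.Lib.CFT.Unram.CrossingFields.Package
import Fermat.Agent.Lib.CFT.Unram.CrossingFields.PackageTop

set_option autoImplicit false
set_option linter.unusedSectionVars false

namespace Fermat.Agent.Lib.CFT.Unram.CrossingFields

open NumberField IntermediateField Polynomial
open scoped nonZeroDivisors

section TwoPrimes

variable {K L M : Type} [Field K] [NumberField K] [Field L] [NumberField L] [Field M]
  [NumberField M] [Algebra K L] [Algebra L M] [Algebra K M] [IsScalarTower K L M]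
  [IsGalois K L] [IsGalois K M]

theorem crossingData_of_cyclotomic {p : ℕ} (hp : p.Prime) (hCYC : CycloReciprocity p)
    (hUBC : UnramifiedBaseChange) (hK : IsTotallyComplex K) (hdeg : Module.finrank K L = p)
    (hun : IsUnramifiedEverywhere K L)
    {ι : Type} [Fintype ι] [DecidableEq ι] (n : ι → ℕ)
    (hn : Pairwise (Function.onFun Nat.Coprime n))
    [NeZero (∏ i, n i)] [IsCyclotomicExtension {∏ i, n i} L M]
    (hirr : Irreducible (cyclotomic (∏ i, n i) L))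
    (𝔭₁ 𝔭₂ : (Ideal (𝓞 K))⁰) (h₁ : (𝔭₁ : Ideal (𝓞 K)).IsPrime)
    (h₂ : (𝔭₂ : Ideal (𝓞 K)).IsPrime)
    (ha₁ : Nat.Coprime (Ideal.absNorm (𝔭₁ : Ideal (𝓞 K))) (∏ i, n i))
    (ha₂ : Nat.Coprime (Ideal.absNorm (𝔭₂ : Ideal (𝓞 K))) (∏ i, n i))
    (j₁ j₁' j₂ j₂' : ι) (h11' : j₁' ≠ j₁) (h1'2 : j₁' ≠ j₂) (h21 : j₂ ≠ j₁)
    (h2'1 : j₂' ≠ j₁) (h2'2 : j₂' ≠ j₂)
    (hord₁ : p ∣ orderOf ((Ideal.absNorm (𝔭₁ : Ideal (𝓞 K)) : ℕ) : ZMod (n j₁)))
    (hord₁' : p ∣ orderOf ((Ideal.absNorm (𝔭₁ : Ideal (𝓞 K)) : ℕ) : ZMod (n j₁')))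
    (hord₂ : p ∣ orderOf ((Ideal.absNorm (𝔭₂ : Ideal (𝓞 K)) : ℕ) : ZMod (n j₂)))
    (hord₂' : p ∣ orderOf ((Ideal.absNorm (𝔭₂ : Ideal (𝓞 K)) : ℕ) : ZMod (n j₂'))) :
    Nonempty (CrossingData K L p 𝔭₁ 𝔭₂) := by
  classical
  set m : ℕ := ∏ i, n i with hm
  have dvd : ∀ i, n i ∣ m := fun i => Finset.dvd_prod_of_mem n (Finset.mem_univ i)
  have hcard : Nat.card Gal(L/K) = p := by rw [IsGalois.card_aut_eq_finrank, hdeg]
  have : Fact p.Prime := ⟨hp⟩
  have hcyc : IsCyclic Gal(L/K) := isCyclic_of_prime_card hcard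
  obtain ⟨s, hs⟩ := hcyc.exists_generator
  -- the two subgroups
  obtain ⟨H₁, hH₁k, hH₁mem, 𝔮₁, hnorm₁, hcop₁⟩ :=
    exists_subgroup_of_prime (M := M) (m := m) hcard s hs 𝔭₁ h₁ ha₁ (dvd j₁) (dvd j₁')
      hord₁ hord₁'
  obtain ⟨H₂, hH₂k, hH₂mem, 𝔮₂, hnorm₂, hcop₂⟩ :=
    exists_subgroup_of_prime (M := M) (m := m) hcard s hs 𝔭₂ h₂ ha₂ (dvd j₂) (dvd j₂')
      hord₂ hord₂'
  set H : Subgroup Gal(M/K) := H₁ ⊓ H₂ with hH
  -- `H → Gal(L/K)` is onto
  have hsurj : ∀ g : Gal(L/K), ∃ τ ∈ H, AlgEquiv.restrictNormalHom L τ = g := by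
    intro g
    obtain ⟨v, rfl⟩ := Subgroup.mem_zpowers_iff.1 (hs g)
    let u : ∀ i, (ZMod (n i))ˣ := fun i =>
      if i = j₁ then unitMod _ ha₁ (dvd i) ^ v
      else if i = j₂ then unitMod _ ha₂ (dvd i) ^ v else 1
    obtain ⟨c, hc⟩ := exists_units_crt n hn u
    obtain ⟨τ, hτ1, hτ2⟩ := exists_toProd_eq K L M m hirr (s ^ v) c
    refine ⟨τ, ⟨?_, ?_⟩, hτ1⟩
    · apply hH₁mem τ v hτ1
      · rw [hτ2]
        exact (hc j₁).trans (if_pos rfl)
      · rw [hτ2]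
        exact (hc j₁').trans ((if_neg h11').trans (if_neg h1'2))
    · apply hH₂mem τ v hτ1
      · rw [hτ2]
        exact (hc j₂).trans ((if_neg h21).trans (if_pos rfl))
      · rw [hτ2]
        exact (hc j₂').trans ((if_neg h2'1).trans (if_neg h2'2))
  have hmap : ∀ H' : Subgroup Gal(M/K), H ≤ H' →
      (fixedField H').fixingSubgroup.map (AlgEquiv.restrictNormalHom L) = ⊤ := by
    intro H' hle
    rw [IntermediateField.fixingSubgroup_fixedField, eq_top_iff]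
    intro g _
    obtain ⟨τ, hτ, rfl⟩ := hsurj g
    exact ⟨τ, hle hτ, rfl⟩
  have hle₁ : H ≤ H₁ := inf_le_left
  have hle₂ : H ≤ H₂ := inf_le_right
  have hHk : H ⊓ (chi K L M m).ker = ⊥ := by
    rw [eq_bot_iff, ← hH₁k]
    exact inf_le_inf_right _ hle₁
  -- the three auxiliary extensions
  let A₁ : AuxExt K L p := auxExt K L M p hdeg (fixedField H₁) (hmap H₁ hle₁)
  let A₂ : AuxExt K L p := auxExt K L M p hdeg (fixedField H₂) (hmap H₂ hle₂)
  let A : AuxExt K L p := auxExt K L M p hdeg (fixedField H) (hmap H le_rfl)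
  have hF₁ : fixedField H₁ ≤ fixedField H := IntermediateField.fixedField_le hle₁
  have hF₂ : fixedField H₂ ≤ fixedField H := IntermediateField.fixedField_le hle₂
  have hcyc₁ : A₁.IsCyc m := by
    have := isCyclotomicExtension_fixedField K L M m H₁ hH₁k
    exact Package.isCyc_auxExt A₁ hCYC hUBC hK hun M m
  have hcyc₂ : A₂.IsCyc m := by
    have := isCyclotomicExtension_fixedField K L M m H₂ hH₂k
    exact Package.isCyc_auxExt A₂ hCYC hUBC hK hun M m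
  exact ⟨{
    A₁ := A₁
    A₂ := A₂
    A := A
    m := m
    hm := NeZero.ne m
    alg₁ := algOfLE hF₁
    tower₁ := isScalarTower_of_le hF₁
    alg₂ := algOfLE hF₂
    tower₂ := isScalarTower_of_le hF₂
    cyc₁ := hcyc₁
    cyc₂ := hcyc₂
    𝔮₁ := 𝔮₁
    norm₁ := hnorm₁
    cop₁ := hcop₁
    𝔮₂ := 𝔮₂
    norm₂ := hnorm₂
    cop₂ := hcop₂ }⟩

end TwoPrimes

end Fermat.Agent.Lib.CFT.Unram.CrossingFields
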