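/-
helper80 (P-CFT, S14 fast track, WP-A5 "crossing fields").  FINAL DELIVERABLE of WP-A5:
`crossingDataExists : CrossingDataExists p` (from `CycloReciprocity p` and
`UnramifiedBaseChange`).  For two primes `𝔭₁, 𝔭₂` of `K` we choose four distinct auxiliary primes
`ℓ₁, ℓ₁', ℓ₂, ℓ₂'` (Artin's lemma, `CyclotomicAux.exists_prime_notMem_dvd_orderOf`), prime to the
discriminant of `L` and to the norms of `𝔭₁, 𝔭₂`, such that `p` divides the order of `N𝔭ᵢ`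
modulo `ℓᵢ` and modulo `ℓᵢ'`; then `M = L(ζ_m)`, `m = ℓ₁ ℓ₁' ℓ₂ ℓ₂'`, and `TwoPrimes.lean`.
-/
import Mathlib
import Fermat.Agent.Lib.CFT.Unram.CrossingDefs
import Fermat.Agent.Lib.CFT.Unram.CrossingFields.TwoPrimes
import Fermat.Agent.Lib.CFT.Kummer.CyclotomicAuxField

set_option autoImplicit false
set_option linter.unusedSectionVars false

namespace Fermat.Agent.Lib.CFT.Unram.CrossingFields

open NumberField IntermediateField Polynomial
open scoped nonZeroDivisors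

/-- The absolute norm of a nonzero prime ideal is at least `2`. -/
theorem two_le_absNorm_of_isPrime {K : Type*} [Field K] [NumberField K] (𝔭 : (Ideal (𝓞 K))⁰)
    (h𝔭 : (𝔭 : Ideal (𝓞 K)).IsPrime) : 2 ≤ Ideal.absNorm (𝔭 : Ideal (𝓞 K)) := by
  have h0 : Ideal.absNorm (𝔭 : Ideal (𝓞 K)) ≠ 0 := by
    rw [Ne, Ideal.absNorm_eq_zero_iff]
    exact nonZeroDivisors.coe_ne_zero 𝔭
  have h1 : Ideal.absNorm (𝔭 : Ideal (𝓞 K)) ≠ 1 := by
    rw [Ne, Ideal.absNorm_eq_one_iff]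
    exact h𝔭.ne_top
  omega

/-- **WP-A5.** Crossing data exist for every pair of nonzero primes. -/
theorem crossingDataExists {p : ℕ} (hp : p.Prime) (hCYC : CycloReciprocity p)
    (hUBC : UnramifiedBaseChange) : CrossingDataExists p := by
  intro K L _ _ _ _ _ _ hK hdeg hun 𝔭₁ 𝔭₂ h₁ h₂
  classical
  set a₁ : ℕ := Ideal.absNorm (𝔭₁ : Ideal (𝓞 K)) with ha₁
  set a₂ : ℕ := Ideal.absNorm (𝔭₂ : Ideal (𝓞 K)) with ha₂
  have h2a₁ : 2 ≤ a₁ := two_le_absNorm_of_isPrime 𝔭₁ h₁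
  have h2a₂ : 2 ≤ a₂ := two_le_absNorm_of_isPrime 𝔭₂ h₂
  -- the forbidden primes
  set T₀ : Finset ℕ := (discr L).natAbs.primeFactors ∪ a₁.primeFactors ∪ a₂.primeFactors
    with hT₀
  obtain ⟨ℓ₁, hℓ₁, hℓ₁T, -, ho₁⟩ :=
    CyclotomicAux.exists_prime_notMem_dvd_orderOf h2a₁ hp.ne_zero T₀
  obtain ⟨ℓ₁', hℓ₁', hℓ₁'T, -, ho₁'⟩ :=
    CyclotomicAux.exists_prime_notMem_dvd_orderOf h2a₁ hp.ne_zero (T₀ ∪ {ℓ₁})
  obtain ⟨ℓ₂, hℓ₂, hℓ₂T, -, ho₂⟩ :=
    CyclotomicAux.exists_prime_notMem_dvd_orderOf h2a₂ hp.ne_zero (T₀ ∪ {ℓ₁} ∪ {ℓ₁'})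
  obtain ⟨ℓ₂', hℓ₂', hℓ₂'T, -, ho₂'⟩ :=
    CyclotomicAux.exists_prime_notMem_dvd_orderOf h2a₂ hp.ne_zero (T₀ ∪ {ℓ₁} ∪ {ℓ₁'} ∪ {ℓ₂})
  -- the family of primes
  let n : Fin 4 → ℕ := ![ℓ₁, ℓ₁', ℓ₂, ℓ₂']
  have hnprime : ∀ i, (n i).Prime := by
    intro i
    fin_cases i
    · exact hℓ₁
    · exact hℓ₁'
    · exact hℓ₂
    · exact hℓ₂'
  have hnT : ∀ i, n i ∉ T₀ := by
    intro i
    fin_cases i
    · exact hℓ₁T
    · exact fun h => hℓ₁'T (Finset.mem_union_left _ h)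
    · exact fun h => hℓ₂T (Finset.mem_union_left _ (Finset.mem_union_left _ h))
    · exact fun h => hℓ₂'T
        (Finset.mem_union_left _ (Finset.mem_union_left _ (Finset.mem_union_left _ h)))
  have h10 : ℓ₁' ≠ ℓ₁ := fun h => hℓ₁'T (by rw [h]; simp)
  have h20 : ℓ₂ ≠ ℓ₁ := fun h => hℓ₂T (by rw [h]; simp)
  have h21 : ℓ₂ ≠ ℓ₁' := fun h => hℓ₂T (by rw [h]; simp)
  have h30 : ℓ₂' ≠ ℓ₁ := fun h => hℓ₂'T (by rw [h]; simp)
  have h31 : ℓ₂' ≠ ℓ₁' := fun h => hℓ₂'T (by rw [h]; simp)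
  have h32 : ℓ₂' ≠ ℓ₂ := fun h => hℓ₂'T (by rw [h]; simp)
  have hninj : Function.Injective n := by
    intro i j hij
    fin_cases i <;> fin_cases j <;> first | rfl | (exfalso; simp [n] at hij; tauto)
  have hn : Pairwise (Function.onFun Nat.Coprime n) := by
    intro i j hij
    exact (Nat.coprime_primes (hnprime i) (hnprime j)).2 fun h => hij (hninj h)
  set m : ℕ := ∏ i, n i with hm
  have hm0 : m ≠ 0 := Finset.prod_ne_zero_iff.2 fun i _ => (hnprime i).ne_zero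
  have : NeZero m := ⟨hm0⟩
  -- `m` is prime to `T₀`-numbers
  have hcop : ∀ b : ℕ, b ≠ 0 → b.primeFactors ⊆ T₀ → Nat.Coprime b m := by
    intro b hb hbT
    rw [hm]
    apply Nat.Coprime.prod_right
    intro i _
    rw [Nat.coprime_comm, (hnprime i).coprime_iff_not_dvd]
    intro hdvd
    exact hnT i (hbT (Nat.mem_primeFactors.2 ⟨hnprime i, hdvd, hb⟩))
  have hcopa₁ : Nat.Coprime a₁ m := hcop a₁ (by omega) (by
    rw [hT₀]; intro x hx; exact Finset.mem_union_left _ (Finset.mem_union_right _ hx))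
  have hcopa₂ : Nat.Coprime a₂ m := hcop a₂ (by omega) (by
    rw [hT₀]; intro x hx; exact Finset.mem_union_right _ hx)
  have hcopd : Nat.Coprime m (discr L).natAbs :=
    (hcop _ (Int.natAbs_ne_zero.2 (discr_ne_zero L)) (by
      rw [hT₀]; intro x hx
      exact Finset.mem_union_left _ (Finset.mem_union_left _ hx))).symm
  have hirr : Irreducible (cyclotomic m L) :=
    CyclotomicAux.irreducible_cyclotomic_of_coprime_discr L m hcopd
  -- the cyclotomic field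
  let M : Type := CyclotomicField m L
  have : IsScalarTower K L M := inferInstance
  have : NumberField M := IsCyclotomicExtension.numberField {m} L M
  have : IsGalois K M := isGalois_top K L M m
  exact crossingData_of_cyclotomic (M := M) hp hCYC hUBC hK hdeg hun n hn hirr 𝔭₁ 𝔭₂ h₁ h₂
    hcopa₁ hcopa₂ 0 1 2 3 (by decide) (by decide) (by decide) (by decide) (by decide)
    ho₁ ho₁' ho₂ ho₂'

end Fermat.Agent.Lib.CFT.Unram.CrossingFields
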