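/-
helper17 (P-CFT, S14 fast track, WP-A5 helper): choice of the four auxiliary primes for the
crossing argument.  For a number field `L`, a prime `p`, two integers `a₁ a₂ ≥ 2` (the absolute norms
of the two primes of `K`) and a finite set `T` of forbidden primes there are four distinct primes
`l₁ l₁' l₂ l₂'`, outside `T`, different from `p`, not dividing `a₁ a₂`, prime to the discriminant of
`L`, with `p ∣ orderOf (a_i : ZMod l_i)` and `p ∣ orderOf (a_i : ZMod l_i')`; for their product `m`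
the cyclotomic polynomial `Φ_m` is irreducible over `L`, so `Gal(L(ζ_m)/L) = (ZMod m)ˣ`.
-/
import Mathlib
import Fermat.Agent.Lib.CFT.Kummer.CyclotomicAuxField

set_option autoImplicit false

open Polynomial

namespace Fermat.Agent.Lib.CFT.Unram.CrossingFields.ChoosePrimes

open Fermat.Agent.Lib.CFT.CyclotomicAux

/-- The finite set of primes to avoid. -/
noncomputable def badPrimes (L : Type*) [Field L] [NumberField L] (p a₁ a₂ : ℕ) (T : Finset ℕ) :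
    Finset ℕ :=
  T ∪ a₁.primeFactors ∪ a₂.primeFactors ∪ {p} ∪ (NumberField.discr L).natAbs.primeFactors

theorem good_of_notMem_badPrimes {L : Type*} [Field L] [NumberField L] {p a₁ a₂ : ℕ}
    {T : Finset ℕ} (ha₁ : a₁ ≠ 0) (ha₂ : a₂ ≠ 0) {l : ℕ} (hl : l.Prime)
    (h : l ∉ badPrimes L p a₁ a₂ T) :
    l ∉ T ∧ ¬ l ∣ a₁ ∧ ¬ l ∣ a₂ ∧ l ≠ p ∧ l.Coprime (NumberField.discr L).natAbs := by
  simp only [badPrimes, Finset.mem_union, Finset.mem_singleton, not_or] at h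
  obtain ⟨⟨⟨⟨hT, h1⟩, h2⟩, h3⟩, h4⟩ := h
  refine ⟨hT, fun hd => h1 ?_, fun hd => h2 ?_, h3, ?_⟩
  · exact Nat.mem_primeFactors.2 ⟨hl, hd, ha₁⟩
  · exact Nat.mem_primeFactors.2 ⟨hl, hd, ha₂⟩
  · rw [hl.coprime_iff_not_dvd]
    intro hd
    exact h4 (Nat.mem_primeFactors.2
      ⟨hl, hd, Int.natAbs_ne_zero.2 (NumberField.discr_ne_zero L)⟩)

/-- **Choice of the auxiliary primes.** -/
theorem exists_crossing_primes (L : Type*) [Field L] [NumberField L] {p : ℕ} (hp : p.Prime)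
    {a₁ a₂ : ℕ} (ha₁ : 2 ≤ a₁) (ha₂ : 2 ≤ a₂) (T : Finset ℕ) :
    ∃ l₁ l₁' l₂ l₂' : ℕ,
      l₁.Prime ∧ l₁'.Prime ∧ l₂.Prime ∧ l₂'.Prime ∧
      l₁ ≠ l₁' ∧ l₁ ≠ l₂ ∧ l₁ ≠ l₂' ∧ l₁' ≠ l₂ ∧ l₁' ≠ l₂' ∧ l₂ ≠ l₂' ∧
      (∀ l, l = l₁ ∨ l = l₁' ∨ l = l₂ ∨ l = l₂' →
        l ∉ T ∧ ¬ l ∣ a₁ ∧ ¬ l ∣ a₂ ∧ l ≠ p ∧ l.Coprime (NumberField.discr L).natAbs) ∧
      p ∣ orderOf (a₁ : ZMod l₁) ∧ p ∣ orderOf (a₁ : ZMod l₁') ∧
      p ∣ orderOf (a₂ : ZMod l₂) ∧ p ∣ orderOf (a₂ : ZMod l₂') ∧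
      (l₁ * l₁' * l₂ * l₂').Coprime (NumberField.discr L).natAbs ∧
      Irreducible (cyclotomic (l₁ * l₁' * l₂ * l₂') L) := by
  have h10 : a₁ ≠ 0 := by omega
  have h20 : a₂ ≠ 0 := by omega
  set T₀ := badPrimes L p a₁ a₂ T with hT₀
  obtain ⟨l₁, hl₁, hT₁, -, ho₁⟩ := exists_prime_notMem_dvd_orderOf ha₁ hp.ne_zero T₀
  obtain ⟨l₁', hl₁', hT₁', -, ho₁'⟩ :=
    exists_prime_notMem_dvd_orderOf ha₁ hp.ne_zero (T₀ ∪ {l₁})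
  obtain ⟨l₂, hl₂, hT₂, -, ho₂⟩ :=
    exists_prime_notMem_dvd_orderOf ha₂ hp.ne_zero (T₀ ∪ {l₁} ∪ {l₁'})
  obtain ⟨l₂', hl₂', hT₂', -, ho₂'⟩ :=
    exists_prime_notMem_dvd_orderOf ha₂ hp.ne_zero (T₀ ∪ {l₁} ∪ {l₁'} ∪ {l₂})
  simp only [Finset.mem_union, Finset.mem_singleton, not_or] at hT₁' hT₂ hT₂'
  have g₁ := good_of_notMem_badPrimes h10 h20 hl₁ hT₁
  have g₁' := good_of_notMem_badPrimes h10 h20 hl₁' hT₁'.1
  have g₂ := good_of_notMem_badPrimes h10 h20 hl₂ hT₂.1.1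
  have g₂' := good_of_notMem_badPrimes h10 h20 hl₂' hT₂'.1.1.1
  have hcop : (l₁ * l₁' * l₂ * l₂').Coprime (NumberField.discr L).natAbs :=
    Nat.Coprime.mul_left (Nat.Coprime.mul_left (Nat.Coprime.mul_left g₁.2.2.2.2 g₁'.2.2.2.2)
      g₂.2.2.2.2) g₂'.2.2.2.2
  have : NeZero (l₁ * l₁' * l₂ * l₂') :=
    ⟨Nat.mul_ne_zero (Nat.mul_ne_zero (Nat.mul_ne_zero hl₁.ne_zero hl₁'.ne_zero) hl₂.ne_zero)
      hl₂'.ne_zero⟩
  refine ⟨l₁, l₁', l₂, l₂', hl₁, hl₁', hl₂, hl₂', Ne.symm hT₁'.2, Ne.symm hT₂.1.2,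
    Ne.symm hT₂'.1.1.2, Ne.symm hT₂.2, Ne.symm hT₂'.1.2, Ne.symm hT₂'.2, ?_, ho₁, ho₁', ho₂, ho₂',
    hcop, irreducible_cyclotomic_of_coprime_discr L _ hcop⟩
  rintro l (rfl | rfl | rfl | rfl)
  exacts [g₁, g₁', g₂, g₂']

end Fermat.Agent.Lib.CFT.Unram.CrossingFields.ChoosePrimes
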