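/-
helper66 (P-CFT, S14 fast track, WP-A5 "crossing fields").  Choice of the auxiliary primes for
Artin's crossing argument: for finitely many integers `a i ≥ 2` (norms of primes) and `n ≠ 0`
there are pairwise distinct primes `l i`, outside a prescribed finite set, dividing no `a j`, with
`n ∣ orderOf (a i mod l i)`.  For a number field `L` they can moreover be chosen so that the
cyclotomic polynomial of `m = ∏ l i` is irreducible over `L`.
-/
import Mathlib
import Fermat.Agent.Lib.CFT.Kummer.CyclotomicAuxField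

set_option autoImplicit false

namespace Fermat.Agent.Lib.CFT.Unram.CrossingFields

open Polynomial NumberField

/-- The order of a natural number modulo `l`, as a unit and as an element of `ZMod l`. -/
theorem orderOf_unitOfCoprime {l : ℕ} (a : ℕ) (h : a.Coprime l) :
    orderOf (ZMod.unitOfCoprime a h) = orderOf (a : ZMod l) := by
  rw [← orderOf_units, ZMod.coe_unitOfCoprime]

section Choose

variable {ι : Type*} [DecidableEq ι]

/-- Successive choice of auxiliary primes along a finite set of indices. -/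
theorem exists_primes_on (a : ι → ℕ) (ha : ∀ i, 2 ≤ a i) {n : ℕ} (hn : n ≠ 0) (T : Finset ℕ)
    (s : Finset ι) :
    ∃ l : ι → ℕ, Set.InjOn l s ∧ ∀ i ∈ s, (l i).Prime ∧ l i ∉ T ∧
      n ∣ orderOf ((a i : ℕ) : ZMod (l i)) := by
  induction s using Finset.induction_on with
  | empty => exact ⟨fun _ => 0, by simp, by simp⟩
  | insert i₀ s hi₀ ih =>
    obtain ⟨l, hinj, hl⟩ := ih
    obtain ⟨ℓ, hℓ, hℓT, -, hord⟩ :=
      Fermat.Agent.Lib.CFT.CyclotomicAux.exists_prime_notMem_dvd_orderOf (ha i₀) hn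
        (T ∪ s.image l)
    rw [Finset.mem_union, not_or] at hℓT
    refine ⟨Function.update l i₀ ℓ, ?_, ?_⟩
    · intro x hx y hy hxy
      rw [Finset.coe_insert, Set.mem_insert_iff] at hx hy
      by_cases hxi : x = i₀
      · by_cases hyi : y = i₀
        · rw [hxi, hyi]
        · exfalso
          have hys : y ∈ s := by
            rcases hy with hy | hy
            · exact absurd hy hyi
            · exact hy
          rw [hxi, Function.update_self, Function.update_of_ne hyi] at hxy
          exact hℓT.2 (hxy ▸ Finset.mem_image_of_mem l hys)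
      · have hxs : x ∈ s := by
          rcases hx with hx | hx
          · exact absurd hx hxi
          · exact hx
        by_cases hyi : y = i₀
        · exfalso
          rw [hyi, Function.update_self, Function.update_of_ne hxi] at hxy
          exact hℓT.2 (hxy ▸ Finset.mem_image_of_mem l hxs)
        · have hys : y ∈ s := by
            rcases hy with hy | hy
            · exact absurd hy hyi
            · exact hy
          rw [Function.update_of_ne hxi, Function.update_of_ne hyi] at hxy
          exact hinj hxs hys hxy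
    · intro i hi
      rw [Finset.mem_insert] at hi
      by_cases hii : i = i₀
      · subst hii
        rw [Function.update_self]
        exact ⟨hℓ, hℓT.1, hord⟩
      · rw [Function.update_of_ne hii]
        exact hl i (hi.resolve_left hii)

variable [Fintype ι]

/-- Choice of auxiliary primes: pairwise distinct primes `l i ∉ T`, dividing no `a j`, such that
`n` divides the order of `a i` modulo `l i`. -/
theorem exists_primes (a : ι → ℕ) (ha : ∀ i, 2 ≤ a i) {n : ℕ} (hn : n ≠ 0) (T : Finset ℕ) :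
    ∃ l : ι → ℕ, Function.Injective l ∧ (∀ i, (l i).Prime) ∧ (∀ i, l i ∉ T) ∧
      (∀ i j, (a j).Coprime (l i)) ∧ ∀ i, n ∣ orderOf ((a i : ℕ) : ZMod (l i)) := by
  obtain ⟨l, hinj, hl⟩ := exists_primes_on a ha hn
    (T ∪ Finset.univ.biUnion fun j => (a j).primeFactors) Finset.univ
  refine ⟨l, ?_, fun i => (hl i (Finset.mem_univ i)).1, ?_, ?_,
    fun i => (hl i (Finset.mem_univ i)).2.2⟩
  · intro x y hxy
    exact hinj (Finset.mem_coe.2 (Finset.mem_univ x)) (Finset.mem_coe.2 (Finset.mem_univ y)) hxy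
  · intro i hi
    exact (hl i (Finset.mem_univ i)).2.1 (Finset.mem_union_left _ hi)
  · intro i j
    have hp := (hl i (Finset.mem_univ i)).1
    rw [Nat.coprime_comm, hp.coprime_iff_not_dvd]
    intro hdvd
    apply (hl i (Finset.mem_univ i)).2.1
    apply Finset.mem_union_right
    rw [Finset.mem_biUnion]
    exact ⟨j, Finset.mem_univ j, Nat.mem_primeFactors.2
      ⟨hp, hdvd, by have := ha j; omega⟩⟩

omit [DecidableEq ι] [Fintype ι] in
/-- Distinct primes are pairwise coprime. -/
theorem pairwise_coprime_of_injective_of_prime {l : ι → ℕ} (hinj : Function.Injective l)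
    (hl : ∀ i, (l i).Prime) : Pairwise (Function.onFun Nat.Coprime l) := by
  intro i j hij
  exact (Nat.coprime_primes (hl i) (hl j)).2 fun h => hij (hinj h)

omit [DecidableEq ι] in
/-- A number coprime to every factor is coprime to the product. -/
theorem coprime_prod_of_forall_coprime {l : ι → ℕ} {b : ℕ} (h : ∀ i, b.Coprime (l i)) :
    b.Coprime (∏ i, l i) :=
  Nat.Coprime.prod_right fun i _ => h i

/-- Choice of the auxiliary primes for a number field `L`: as `exists_primes`, and moreover the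
cyclotomic polynomial of `m = ∏ l i` is irreducible over `L`. -/
theorem exists_primes_field (L : Type*) [Field L] [NumberField L] (a : ι → ℕ)
    (ha : ∀ i, 2 ≤ a i) {n : ℕ} (hn : n ≠ 0) (T : Finset ℕ) :
    ∃ l : ι → ℕ, Function.Injective l ∧ (∀ i, (l i).Prime) ∧ (∀ i, l i ∉ T) ∧
      (∀ i j, (a j).Coprime (l i)) ∧ (∀ i, n ∣ orderOf ((a i : ℕ) : ZMod (l i))) ∧
      Pairwise (Function.onFun Nat.Coprime l) ∧ (∏ i, l i) ≠ 0 ∧
      (∀ j, (a j).Coprime (∏ i, l i)) ∧ (∏ i, l i).Coprime (discr L).natAbs ∧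
      Irreducible (cyclotomic (∏ i, l i) L) := by
  obtain ⟨l, hinj, hl, hT, hcop, hord⟩ :=
    exists_primes a ha hn (T ∪ (discr L).natAbs.primeFactors)
  have hm0 : (∏ i, l i) ≠ 0 := Finset.prod_ne_zero_iff.2 fun i _ => (hl i).ne_zero
  have hd0 : (discr L).natAbs ≠ 0 := Int.natAbs_ne_zero.mpr (discr_ne_zero L)
  have hdisc : (∏ i, l i).Coprime (discr L).natAbs := by
    apply Nat.Coprime.prod_left
    intro i _
    rw [(hl i).coprime_iff_not_dvd]
    intro hdvd
    exact hT i (Finset.mem_union_right _ (Nat.mem_primeFactors.2 ⟨hl i, hdvd, hd0⟩))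
  have : NeZero (∏ i, l i) := ⟨hm0⟩
  exact ⟨l, hinj, hl, fun i hi => hT i (Finset.mem_union_left _ hi), hcop, hord,
    pairwise_coprime_of_injective_of_prime hinj hl, hm0,
    fun j => coprime_prod_of_forall_coprime fun i => hcop i j, hdisc,
    Fermat.Agent.Lib.CFT.CyclotomicAux.irreducible_cyclotomic_of_coprime_discr L _ hdisc⟩

end Choose

/-- The absolute norm of a nonzero prime ideal is at least `2`. -/
theorem two_le_absNorm_of_isPrime {K : Type*} [Field K] [NumberField K]
    (𝔭 : Ideal (𝓞 K)) (h0 : 𝔭 ≠ ⊥) (h𝔭 : 𝔭.IsPrime) : 2 ≤ Ideal.absNorm 𝔭 := by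
  have h1 : Ideal.absNorm 𝔭 ≠ 0 := fun h => h0 (Ideal.absNorm_eq_zero_iff.1 h)
  have h2 : Ideal.absNorm 𝔭 ≠ 1 := fun h => h𝔭.ne_top (Ideal.absNorm_eq_one_iff.1 h)
  omega

/-- Choice of the four auxiliary primes attached to two primes `𝔭₁`, `𝔭₂` of `K` (indexed by
`i : Fin 2` for the prime and `j : Fin 2` for `l`, `l'`): pairwise distinct primes `l (i, j)`
outside `T`, prime to `absNorm 𝔭₁` and `absNorm 𝔭₂`, with `n ∣ orderOf (absNorm 𝔭ᵢ mod l (i, j))`,
and such that the cyclotomic polynomial of their product is irreducible over `L`. -/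
theorem exists_primes_of_two_primes {K : Type*} [Field K] [NumberField K] (L : Type*) [Field L]
    [NumberField L] (𝔭 : Fin 2 → Ideal (𝓞 K)) (h0 : ∀ i, 𝔭 i ≠ ⊥) (h𝔭 : ∀ i, (𝔭 i).IsPrime)
    {n : ℕ} (hn : n ≠ 0) (T : Finset ℕ) :
    ∃ l : Fin 2 × Fin 2 → ℕ, Function.Injective l ∧ (∀ x, (l x).Prime) ∧ (∀ x, l x ∉ T) ∧
      (∀ x i, (Ideal.absNorm (𝔭 i)).Coprime (l x)) ∧
      (∀ x : Fin 2 × Fin 2, n ∣ orderOf ((Ideal.absNorm (𝔭 x.1) : ℕ) : ZMod (l x))) ∧
      Pairwise (Function.onFun Nat.Coprime l) ∧ (∏ x, l x) ≠ 0 ∧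
      (∀ i, (Ideal.absNorm (𝔭 i)).Coprime (∏ x, l x)) ∧
      (∏ x, l x).Coprime (discr L).natAbs ∧
      Irreducible (cyclotomic (∏ x, l x) L) := by
  obtain ⟨l, h1, h2, h3, h4, h5, h6, h7, h8, h9, h10⟩ :=
    exists_primes_field L (fun x : Fin 2 × Fin 2 => Ideal.absNorm (𝔭 x.1))
      (fun x => two_le_absNorm_of_isPrime _ (h0 x.1) (h𝔭 x.1)) hn T
  exact ⟨l, h1, h2, h3, fun x i => h4 x (i, 0), h5, h6, h7, fun i => h8 (i, 0), h9, h10⟩

end Fermat.Agent.Lib.CFT.Unram.CrossingFields
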