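/-
helper53 (P-CFT, S14 fast track, WP-A5 part C3).  Primes of fixed fields containing a
Frobenius element: if `σ` is an arithmetic Frobenius at a prime `P` of `M` and `σ` fixes the
intermediate field `F` pointwise, then the prime `P ∩ 𝓞 F` has inertia degree one over `K`,
hence its relative norm is `P ∩ 𝓞 K`.  Also: triviality of inertia groups in towers.
-/
import Mathlib
import Fermat.Agent.Lib.CFT.Unram.Defs
import Fermat.Agent.Lib.CFT.Kummer.CyclotomicAuxField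

set_option autoImplicit false

namespace Fermat.Agent.Lib.CFT.Unram.CrossingFields

open NumberField
open scoped nonZeroDivisors Pointwise

namespace FixedFieldPrime

/-! ### A finite field extension all of whose elements satisfy `y ^ N = y` -/

/-- If every element of a finite field `l` satisfies `y ^ N = y` with `2 ≤ N` then `l` has at most
`N` elements. -/
theorem card_le_of_forall_pow_eq {l : Type*} [Field l] [Finite l] {N : ℕ} (hN : 2 ≤ N)
    (h : ∀ y : l, y ^ N = y) : Nat.card l ≤ N := by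
  classical
  have := Fintype.ofFinite l
  set f : Polynomial l := Polynomial.X ^ N - Polynomial.X with hf
  have hdeg : f.natDegree = N := by
    rw [hf]
    exact FiniteField.X_pow_card_sub_X_natDegree_eq l (by omega)
  have hf0 : f ≠ 0 := by
    intro h0
    rw [h0, Polynomial.natDegree_zero] at hdeg
    omega
  have hroots : (Finset.univ : Finset l).val ≤ f.roots := by
    rw [Multiset.le_iff_subset Finset.univ.nodup]
    intro y _
    rw [Polynomial.mem_roots hf0, Polynomial.IsRoot, hf]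
    simp [h y]
  have h1 := Multiset.card_le_card hroots
  have h2 := Polynomial.card_roots' f
  rw [Nat.card_eq_fintype_card]
  calc Fintype.card l = Multiset.card (Finset.univ : Finset l).val := rfl
    _ ≤ Multiset.card f.roots := h1
    _ ≤ f.natDegree := h2
    _ = N := hdeg

section Main

variable {K M : Type*} [Field K] [NumberField K] [Field M] [NumberField M] [Algebra K M]
  [IsGalois K M]

/-- Elements of the ring of integers of an intermediate field fixed pointwise by `σ` are fixed by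
the action of `σ` on `𝓞 M`. -/
theorem smul_algebraMap_eq (F : IntermediateField K M) {σ : Gal(M/K)}
    (hσF : ∀ x ∈ F, σ x = x) (x : 𝓞 F) :
    σ • (algebraMap (𝓞 F) (𝓞 M) x) = algebraMap (𝓞 F) (𝓞 M) x := by
  apply RingOfIntegers.ext
  show σ ((algebraMap (𝓞 F) (𝓞 M) x : 𝓞 M) : M) = _
  have h1 : ((algebraMap (𝓞 F) (𝓞 M) x : 𝓞 M) : M) = ((x : F) : M) := rfl
  rw [h1]
  exact hσF _ (x : F).2

/-- **C3, inertia degree.** Let `F` be an intermediate field of the Galois extension `M/K` of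
number fields, `P` a nonzero prime of `𝓞 M` and `σ` an arithmetic Frobenius at `P` fixing `F`
pointwise.  Then the prime `P ∩ 𝓞 F` of `F` has inertia degree one over `K`. -/
theorem inertiaDeg_under_eq_one (F : IntermediateField K M) (P : Ideal (𝓞 M)) [P.IsPrime]
    (hP : P ≠ ⊥) {σ : Gal(M/K)} (hσF : ∀ x ∈ F, σ x = x) (hσ : IsArithFrobAt (𝓞 K) σ P) :
    (P.under (𝓞 F)).inertiaDeg (𝓞 K) = 1 := by
  set 𝔓 : Ideal (𝓞 F) := P.under (𝓞 F) with h𝔓
  set 𝔮 : Ideal (𝓞 K) := P.under (𝓞 K) with h𝔮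
  have hP𝔓 : P.LiesOver 𝔓 := ⟨rfl⟩
  have hP𝔮 : P.LiesOver 𝔮 := ⟨rfl⟩
  have h𝔓𝔮 : 𝔓.LiesOver 𝔮 := Ideal.LiesOver.tower_bot P 𝔓 𝔮
  have h𝔓p : 𝔓.IsPrime := Ideal.IsPrime.under (𝓞 F) P
  have h𝔮p : 𝔮.IsPrime := Ideal.IsPrime.under (𝓞 K) P
  have h𝔮0 : 𝔮 ≠ ⊥ := by
    intro h0
    apply hP
    have : P.LiesOver (⊥ : Ideal (𝓞 K)) := ⟨h0.symm⟩
    exact Ideal.eq_bot_of_liesOver_bot (𝓞 K) P
  have h𝔓0 : 𝔓 ≠ ⊥ := by
    intro h0
    apply hP
    have : P.LiesOver (⊥ : Ideal (𝓞 F)) := ⟨h0.symm⟩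
    exact Ideal.eq_bot_of_liesOver_bot (𝓞 F) P
  have h𝔮m : 𝔮.IsMaximal := Ideal.IsPrime.isMaximal h𝔮p h𝔮0
  have h𝔓m : 𝔓.IsMaximal := Ideal.IsPrime.isMaximal h𝔓p h𝔓0
  let _ : Field (𝓞 K ⧸ 𝔮) := Ideal.Quotient.field 𝔮
  let _ : Field (𝓞 F ⧸ 𝔓) := Ideal.Quotient.field 𝔓
  have hfink : Finite (𝓞 K ⧸ 𝔮) := Ideal.finiteQuotientOfFreeOfNeBot 𝔮 h𝔮0
  have hfinl : Finite (𝓞 F ⧸ 𝔓) := Ideal.finiteQuotientOfFreeOfNeBot 𝔓 h𝔓0
  set N : ℕ := Nat.card (𝓞 K ⧸ 𝔮) with hN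
  have hN2 : 2 ≤ N := by
    have : Nontrivial (𝓞 K ⧸ 𝔮) := inferInstance
    exact Finite.one_lt_card
  -- every element of the residue field of `𝔓` is fixed by `y ↦ y ^ N`
  have hpow : ∀ y : 𝓞 F ⧸ 𝔓, y ^ N = y := by
    intro y
    obtain ⟨x, rfl⟩ := Ideal.Quotient.mk_surjective y
    rw [← map_pow, eq_comm, Ideal.Quotient.eq]
    show x - x ^ N ∈ P.comap (algebraMap (𝓞 F) (𝓞 M))
    rw [Ideal.mem_comap, map_sub, map_pow]
    have h1 := hσ (algebraMap (𝓞 F) (𝓞 M) x)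
    have h2 : (MulSemiringAction.toAlgHom (𝓞 K) (𝓞 M) σ) (algebraMap (𝓞 F) (𝓞 M) x) =
        algebraMap (𝓞 F) (𝓞 M) x := smul_algebraMap_eq F hσF x
    rw [h2] at h1
    exact h1
  have hcard : Nat.card (𝓞 F ⧸ 𝔓) ≤ N := card_le_of_forall_pow_eq hN2 hpow
  have hcard' : Nat.card (𝓞 F ⧸ 𝔓) = N ^ Module.finrank (𝓞 K ⧸ 𝔮) (𝓞 F ⧸ 𝔓) :=
    Module.natCard_eq_pow_finrank (K := 𝓞 K ⧸ 𝔮)
  rw [Ideal.inertiaDeg_eq_of_isMaximal 𝔮 𝔓]
  have hpos : 0 < Module.finrank (𝓞 K ⧸ 𝔮) (𝓞 F ⧸ 𝔓) := Module.finrank_pos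
  rw [hcard'] at hcard
  by_contra hne
  have h2 : 2 ≤ Module.finrank (𝓞 K ⧸ 𝔮) (𝓞 F ⧸ 𝔓) := by omega
  have h3 : N ^ 2 ≤ N ^ Module.finrank (𝓞 K ⧸ 𝔮) (𝓞 F ⧸ 𝔓) :=
    Nat.pow_le_pow_right (by omega) h2
  nlinarith

/-- **C3, relative norm.** In the situation of `inertiaDeg_under_eq_one`, the relative norm of
`P ∩ 𝓞 F` is `P ∩ 𝓞 K`. -/
theorem relNorm_under_eq (F : IntermediateField K M) (P : Ideal (𝓞 M)) [P.IsPrime]
    (hP : P ≠ ⊥) {σ : Gal(M/K)} (hσF : ∀ x ∈ F, σ x = x) (hσ : IsArithFrobAt (𝓞 K) σ P) :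
    Ideal.relNorm (𝓞 K) (P.under (𝓞 F)) = P.under (𝓞 K) := by
  set 𝔓 : Ideal (𝓞 F) := P.under (𝓞 F) with h𝔓
  set 𝔮 : Ideal (𝓞 K) := P.under (𝓞 K) with h𝔮
  have hP𝔓 : P.LiesOver 𝔓 := ⟨rfl⟩
  have hP𝔮 : P.LiesOver 𝔮 := ⟨rfl⟩
  have h𝔓𝔮 : 𝔓.LiesOver 𝔮 := Ideal.LiesOver.tower_bot P 𝔓 𝔮
  have h𝔓p : 𝔓.IsPrime := Ideal.IsPrime.under (𝓞 F) P
  have h𝔮p : 𝔮.IsPrime := Ideal.IsPrime.under (𝓞 K) P
  have h𝔮0 : 𝔮 ≠ ⊥ := by
    intro h0
    apply hP
    have : P.LiesOver (⊥ : Ideal (𝓞 K)) := ⟨h0.symm⟩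
    exact Ideal.eq_bot_of_liesOver_bot (𝓞 K) P
  have h𝔓0 : 𝔓 ≠ ⊥ := by
    intro h0
    apply hP
    have : P.LiesOver (⊥ : Ideal (𝓞 F)) := ⟨h0.symm⟩
    exact Ideal.eq_bot_of_liesOver_bot (𝓞 F) P
  have h𝔮m : 𝔮.IsMaximal := Ideal.IsPrime.isMaximal h𝔮p h𝔮0
  have h𝔓m : 𝔓.IsMaximal := Ideal.IsPrime.isMaximal h𝔓p h𝔓0
  rw [Ideal.relNorm_eq_pow_of_isMaximal 𝔓 𝔮, inertiaDeg_under_eq_one F P hP hσF hσ, pow_one]

/-- Version for the fixed field of a subgroup containing the Frobenius element. -/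
theorem inertiaDeg_under_fixedField_eq_one (H : Subgroup Gal(M/K)) (P : Ideal (𝓞 M)) [P.IsPrime]
    (hP : P ≠ ⊥) {σ : Gal(M/K)} (hσH : σ ∈ H) (hσ : IsArithFrobAt (𝓞 K) σ P) :
    (P.under (𝓞 (IntermediateField.fixedField H))).inertiaDeg (𝓞 K) = 1 :=
  inertiaDeg_under_eq_one _ P hP (fun x hx => hx ⟨σ, hσH⟩) hσ

/-- Version for the fixed field of a subgroup containing the Frobenius element. -/
theorem relNorm_under_fixedField_eq (H : Subgroup Gal(M/K)) (P : Ideal (𝓞 M)) [P.IsPrime]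
    (hP : P ≠ ⊥) {σ : Gal(M/K)} (hσH : σ ∈ H) (hσ : IsArithFrobAt (𝓞 K) σ P) :
    Ideal.relNorm (𝓞 K) (P.under (𝓞 (IntermediateField.fixedField H))) = P.under (𝓞 K) :=
  relNorm_under_eq _ P hP (fun x hx => hx ⟨σ, hσH⟩) hσ

/-- **C3, packaged for `CrossingData`.** A nonzero prime `𝔭` of `K`, a prime `P` of `M` above it
and a Frobenius `σ` at `P` fixing `F` pointwise give a prime of `F` below `P` whose relative norm
is `𝔭`. -/
theorem exists_prime_relNorm0_eq (F : IntermediateField K M) (𝔭 : (Ideal (𝓞 K))⁰)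
    (P : Ideal (𝓞 M)) [P.IsPrime] [hP𝔭 : P.LiesOver (𝔭 : Ideal (𝓞 K))]
    {σ : Gal(M/K)} (hσF : ∀ x ∈ F, σ x = x) (hσ : IsArithFrobAt (𝓞 K) σ P) :
    ∃ 𝔮 : (Ideal (𝓞 F))⁰, (𝔮 : Ideal (𝓞 F)).IsPrime ∧ (𝔮 : Ideal (𝓞 F)) = P.under (𝓞 F) ∧
      relNorm0 K F 𝔮 = 𝔭 := by
  have h𝔭0 : (𝔭 : Ideal (𝓞 K)) ≠ ⊥ := nonZeroDivisors.coe_ne_zero 𝔭
  have hP : P ≠ ⊥ := by
    rintro rfl
    apply h𝔭0
    rw [hP𝔭.over]
    exact Ideal.under_bot _ _
  have h𝔓0 : P.under (𝓞 F) ≠ ⊥ := by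
    intro h0
    apply hP
    have : P.LiesOver (⊥ : Ideal (𝓞 F)) := ⟨h0.symm⟩
    exact Ideal.eq_bot_of_liesOver_bot (𝓞 F) P
  refine ⟨⟨P.under (𝓞 F), mem_nonZeroDivisors_of_ne_zero h𝔓0⟩, Ideal.IsPrime.under (𝓞 F) P, rfl,
    ?_⟩
  ext1
  rw [coe_relNorm0]
  show Ideal.relNorm (𝓞 K) (P.under (𝓞 F)) = _
  rw [relNorm_under_eq F P hP hσF hσ, ← hP𝔭.over]

/-- If the natural number `m` does not lie in the prime `P` of `M`, then the prime `P ∩ 𝓞 F` is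
coprime to `m` in `𝓞 F`. -/
theorem isCoprime_under_span_natCast (F : IntermediateField K M) (P : Ideal (𝓞 M)) [P.IsPrime]
    (hP : P ≠ ⊥) (m : ℕ) (hm : (m : 𝓞 M) ∉ P) :
    IsCoprime (P.under (𝓞 F)) (Ideal.span {(m : 𝓞 F)}) := by
  have h𝔓p : (P.under (𝓞 F)).IsPrime := Ideal.IsPrime.under (𝓞 F) P
  have h𝔓0 : P.under (𝓞 F) ≠ ⊥ := by
    intro h0
    apply hP
    have : P.LiesOver (⊥ : Ideal (𝓞 F)) := ⟨h0.symm⟩
    exact Ideal.eq_bot_of_liesOver_bot (𝓞 F) P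
  have h𝔓m : (P.under (𝓞 F)).IsMaximal := Ideal.IsPrime.isMaximal h𝔓p h𝔓0
  rw [Ideal.isCoprime_iff_sup_eq]
  by_contra hne
  have h1 : P.under (𝓞 F) = P.under (𝓞 F) ⊔ Ideal.span {(m : 𝓞 F)} :=
    h𝔓m.eq_of_le hne le_sup_left
  have h2 : (m : 𝓞 F) ∈ P.under (𝓞 F) := by
    rw [h1]
    exact Ideal.mem_sup_right (Ideal.subset_span rfl)
  apply hm
  have h3 : algebraMap (𝓞 F) (𝓞 M) (m : 𝓞 F) ∈ P := h2
  rwa [map_natCast] at h3

end Main

/-! ### Inertia groups in towers -/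

section Tower

variable {K L M : Type*} [Field K] [NumberField K] [Field L] [NumberField L] [Field M]
  [NumberField M] [Algebra K L] [Algebra K M] [Algebra L M] [IsScalarTower K L M]
  [IsGalois K L] [IsGalois K M]

/-- If a prime `P` of `M` has trivial inertia group in `Gal(M/L)` and the prime `P ∩ 𝓞 L` has
trivial inertia group in `Gal(L/K)`, then `P` has trivial inertia group in `Gal(M/K)`. -/
theorem inertia_eq_bot_of_tower (P : Ideal (𝓞 M))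
    (h1 : Ideal.inertia Gal(M/L) P = ⊥)
    (h2 : Ideal.inertia Gal(L/K) (P.under (𝓞 L)) = ⊥) :
    Ideal.inertia Gal(M/K) P = ⊥ := by
  rw [eq_bot_iff]
  intro τ hτ
  rw [Subgroup.mem_bot]
  -- the restriction of `τ` to `L` lies in the inertia group of `P ∩ 𝓞 L`
  have hτL : AlgEquiv.restrictNormalHom L τ ∈ Ideal.inertia Gal(L/K) (P.under (𝓞 L)) := by
    intro y
    show (AlgEquiv.restrictNormalHom L τ) • y - y ∈ P.comap (algebraMap (𝓞 L) (𝓞 M))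
    rw [Ideal.mem_comap, map_sub]
    have e : algebraMap (𝓞 L) (𝓞 M) ((AlgEquiv.restrictNormalHom L τ) • y) =
        τ • algebraMap (𝓞 L) (𝓞 M) y := by
      apply RingOfIntegers.ext
      show algebraMap L M ((AlgEquiv.restrictNormalHom L τ) (y : L)) = τ (algebraMap L M (y : L))
      exact AlgEquiv.restrictNormal_commutes τ L (y : L)
    rw [e]
    exact hτ _
  rw [h2, Subgroup.mem_bot] at hτL
  have hfix : ∀ y : L, τ (algebraMap L M y) = algebraMap L M y := by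
    intro y
    have := AlgEquiv.restrictNormal_commutes τ L y
    rw [← this]
    have h3 : τ.restrictNormal L = AlgEquiv.restrictNormalHom L τ := rfl
    rw [h3, hτL]
    rfl
  -- so `τ` comes from `Gal(M/L)`
  let τ₀ : Gal(M/L) := { (τ : M ≃+* M) with commutes' := hfix }
  have hτ₀ : τ₀ ∈ Ideal.inertia Gal(M/L) P := by
    intro x
    have e : τ₀ • x = τ • x := by
      apply RingOfIntegers.ext
      rfl
    show τ₀ • x - x ∈ P
    rw [e]
    exact hτ x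
  rw [h1, Subgroup.mem_bot] at hτ₀
  ext x
  have : τ₀ x = x := by rw [hτ₀]; rfl
  exact this

end Tower

end FixedFieldPrime

/-! ### The two statements of the A5 interface (note CFT-INTERFACE-CrossingFields) -/

section Interface

set_option linter.unusedVariables false

variable (K M : Type*) [Field K] [NumberField K] [Field M] [NumberField M] [Algebra K M]
  [IsGalois K M]

/-- If a Frobenius element at `P` lies in `H` and `P` has trivial inertia in `Gal(M/K)`, the prime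
of the fixed field `F` of `H` below `P` has relative norm `P ∩ K` (degree one over `K`).
(The inertia hypothesis is not needed.) -/
theorem relNorm_under_fixedField (H : Subgroup Gal(M/K)) (P : Ideal (𝓞 M)) [P.IsPrime]
    (hP0 : P ≠ ⊥) (hin : Ideal.inertia Gal(M/K) P = ⊥) (σ : Gal(M/K)) (hσH : σ ∈ H)
    (hσ : IsArithFrobAt (𝓞 K) σ P) :
    Ideal.relNorm (𝓞 K) (P.under (𝓞 (IntermediateField.fixedField H))) = P.under (𝓞 K) :=
  FixedFieldPrime.relNorm_under_fixedField_eq H P hP0 hσH hσ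

/-- Trivial inertia in `Gal(M/K)` for `M = L(ζ_m)` at primes not containing `m`, when `L/K` is
everywhere unramified. -/
theorem inertia_eq_bot_of_unramified (L : Type*) [Field L] [NumberField L] [Algebra K L]
    [Algebra L M] [IsScalarTower K L M] [IsGalois K L] (m : ℕ) [NeZero m]
    [IsCyclotomicExtension {m} L M] (hun : IsUnramifiedEverywhere K L)
    (P : Ideal (𝓞 M)) [P.IsPrime] (hP0 : P ≠ ⊥) (hm : (m : 𝓞 M) ∉ P) :
    Ideal.inertia Gal(M/K) P = ⊥ := by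
  haveI : IsGalois L M := IsCyclotomicExtension.isGalois {m} L M
  have h1 : Ideal.inertia Gal(M/L) P = ⊥ := CyclotomicAux.inertia_eq_bot m M hP0 hm
  have hp : (P.under (𝓞 L)).IsPrime := Ideal.IsPrime.under (𝓞 L) P
  have h0 : P.under (𝓞 L) ≠ ⊥ := by
    intro h0
    apply hP0
    have : P.LiesOver (⊥ : Ideal (𝓞 L)) := ⟨h0.symm⟩
    exact Ideal.eq_bot_of_liesOver_bot (𝓞 L) P
  have h2 : Ideal.inertia Gal(L/K) (P.under (𝓞 L)) = ⊥ := hun _ hp h0
  exact FixedFieldPrime.inertia_eq_bot_of_tower P h1 h2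

end Interface

end Fermat.Agent.Lib.CFT.Unram.CrossingFields
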