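/-
helper57 (P-CFT, S14 fast track, WP-A5 support).  The image under
`toProd : Gal(M/K) → Gal(L/K) × (ZMod m)ˣ` (`M = L(ζ_m)`) of a Frobenius element at a prime of `M`
not containing `m`: it is `(φ 𝔮, absNorm 𝔮 mod m)`, where `φ` is the Artin map of the everywhere
unramified extension `L/K` and `𝔮` is the prime of `K` below.
-/
import Mathlib
import Fermat.Agent.Lib.CFT.Unram.CrossingFields.Defs
import Fermat.Agent.Lib.CFT.Unram.CycloFrob

set_option autoImplicit false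

namespace Fermat.Agent.Lib.CFT.Unram.CrossingFields

open NumberField
open scoped nonZeroDivisors

section FrobProd

variable (K L M : Type*) [Field K] [NumberField K] [Field L] [NumberField L] [Field M]
  [NumberField M] [Algebra K L] [Algebra L M] [Algebra K M] [IsScalarTower K L M]
  [IsGalois K L] [IsGalois K M] (m : ℕ) [NeZero m] [IsCyclotomicExtension {m} L M]

omit [NumberField L] [Algebra K L] [IsScalarTower K L M] [IsGalois K L] in
/-- The cyclotomic character of a Frobenius element at a prime `P` of `M` not containing `m` is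
the class of the absolute norm of the prime of `K` below `P`. -/
theorem chi_of_isArithFrobAt {σ : Gal(M/K)} {P : Ideal (𝓞 M)} (hm : (m : 𝓞 M) ∉ P)
    (hσ : IsArithFrobAt (𝓞 K) σ P) :
    ((chi K L M m σ : (ZMod m)ˣ) : ZMod m) = (Ideal.absNorm (P.under (𝓞 K)) : ZMod m) :=
  CycloFrob.autToPow_of_isArithFrobAt (IsCyclotomicExtension.zeta_spec m L M) hm hσ

variable {K L M}

/-- The restriction to `L` of a Frobenius element of `M/K` at `P` is the Artin symbol of the prime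
of `K` below `P`, if `L/K` is everywhere unramified. -/
theorem restrictNormalHom_of_isArithFrobAt (hur : IsUnramifiedEverywhere K L)
    {φ : (Ideal (𝓞 K))⁰ →* Gal(L/K)} (hφ : IsArtinMap K L φ)
    (𝔮 : (Ideal (𝓞 K))⁰) (hq : (𝔮 : Ideal (𝓞 K)).IsPrime)
    {P : Ideal (𝓞 M)} [hP : P.IsPrime] (hPq : P.under (𝓞 K) = (𝔮 : Ideal (𝓞 K)))
    {σ : Gal(M/K)} (hσ : IsArithFrobAt (𝓞 K) σ P) :
    AlgEquiv.restrictNormalHom L σ = φ 𝔮 := by
  have hq0 : (𝔮 : Ideal (𝓞 K)) ≠ ⊥ := nonZeroDivisors.coe_ne_zero 𝔮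
  set P' : Ideal (𝓞 L) := P.under (𝓞 L) with hP'
  have hPp : P'.IsPrime := Ideal.IsPrime.under (𝓞 L) P
  have hPq' : P'.LiesOver (𝔮 : Ideal (𝓞 K)) := ⟨by rw [hP', Ideal.under_under, hPq]⟩
  have hP0 : P' ≠ ⊥ := by
    intro h0
    apply hq0
    have := hPq'.over
    rw [this, h0, Ideal.under_def, Ideal.comap_bot_of_injective _
      (FaithfulSMul.algebraMap_injective (𝓞 K) (𝓞 L))]
  have h1 : IsArithFrobAt (𝓞 K) (AlgEquiv.restrictNormalHom L σ) P' :=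
    CycloFrob.isArithFrobAt_restrictNormalHom hσ
  have h2 : IsArithFrobAt (𝓞 K) (φ 𝔮) P' := hφ 𝔮 P' hq hPp hPq'
  have h3 := h1.mul_inv_mem_inertia h2
  rw [hur P' hPp hP0, Subgroup.mem_bot] at h3
  exact mul_inv_eq_one.mp h3

/-- **Image of a Frobenius element under `toProd`.** -/
theorem toProd_of_isArithFrobAt (hur : IsUnramifiedEverywhere K L)
    {φ : (Ideal (𝓞 K))⁰ →* Gal(L/K)} (hφ : IsArtinMap K L φ)
    (𝔮 : (Ideal (𝓞 K))⁰) (hq : (𝔮 : Ideal (𝓞 K)).IsPrime)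
    {P : Ideal (𝓞 M)} [hP : P.IsPrime] (hPq : P.under (𝓞 K) = (𝔮 : Ideal (𝓞 K)))
    (hm : (m : 𝓞 M) ∉ P) {σ : Gal(M/K)} (hσ : IsArithFrobAt (𝓞 K) σ P) :
    (toProd K L M m σ).1 = φ 𝔮 ∧
      (((toProd K L M m σ).2 : (ZMod m)ˣ) : ZMod m) =
        (Ideal.absNorm (𝔮 : Ideal (𝓞 K)) : ZMod m) := by
  refine ⟨restrictNormalHom_of_isArithFrobAt hur hφ 𝔮 hq hPq hσ, ?_⟩
  rw [← hPq]
  exact chi_of_isArithFrobAt K L M m hm hσ

/-- Existence of a Frobenius element over a given prime `𝔮` of `K` not containing `m`, with its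
image under `toProd`. -/
theorem exists_toProd_eq_of_prime (hur : IsUnramifiedEverywhere K L)
    {φ : (Ideal (𝓞 K))⁰ →* Gal(L/K)} (hφ : IsArtinMap K L φ)
    (𝔮 : (Ideal (𝓞 K))⁰) (hq : (𝔮 : Ideal (𝓞 K)).IsPrime)
    (hm : (m : 𝓞 K) ∉ (𝔮 : Ideal (𝓞 K))) :
    ∃ (P : Ideal (𝓞 M)) (σ : Gal(M/K)), P.IsPrime ∧ P ≠ ⊥ ∧
      P.under (𝓞 K) = (𝔮 : Ideal (𝓞 K)) ∧ (m : 𝓞 M) ∉ P ∧ IsArithFrobAt (𝓞 K) σ P ∧
      (toProd K L M m σ).1 = φ 𝔮 ∧
      (((toProd K L M m σ).2 : (ZMod m)ˣ) : ZMod m) =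
        (Ideal.absNorm (𝔮 : Ideal (𝓞 K)) : ZMod m) := by
  have hq0 : (𝔮 : Ideal (𝓞 K)) ≠ ⊥ := nonZeroDivisors.coe_ne_zero 𝔮
  obtain ⟨P, -, hPp, hP⟩ := Ideal.exists_ideal_over_prime_of_isIntegral (S := 𝓞 M)
    (𝔮 : Ideal (𝓞 K)) ⊥ (by simp [Ideal.comap_bot_of_injective _
      (FaithfulSMul.algebraMap_injective (𝓞 K) (𝓞 M))])
  have hPu : P.under (𝓞 K) = (𝔮 : Ideal (𝓞 K)) := hP
  have hP0 : P ≠ ⊥ := by
    rintro rfl
    apply hq0
    rw [← hPu, Ideal.under_def, Ideal.comap_bot_of_injective _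
      (FaithfulSMul.algebraMap_injective (𝓞 K) (𝓞 M))]
  have hmP : (m : 𝓞 M) ∉ P := by
    intro h
    apply hm
    rw [← hPu, Ideal.under_def, Ideal.mem_comap, map_natCast]
    exact h
  have : Finite (𝓞 M ⧸ P) := Ideal.finiteQuotientOfFreeOfNeBot P hP0
  obtain ⟨σ, hσ⟩ := IsArithFrobAt.exists_of_isInvariant (𝓞 K) Gal(M/K) P
  obtain ⟨h1, h2⟩ := toProd_of_isArithFrobAt m hur hφ 𝔮 hq hPu hmP hσ
  exact ⟨P, σ, hPp, hP0, hPu, hmP, hσ, h1, h2⟩

end FrobProd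

end Fermat.Agent.Lib.CFT.Unram.CrossingFields
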