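/-
helper80 (P-CFT, S14 fast track, WP-A5 "crossing fields").  Pure group theory for Artin's
crossing argument:

* `crossSubgroup f c c' s d a a'` : the subgroup of `Γ` of all `τ` with
  `f τ = s ^ (d * u + v)`, `c τ = a ^ (u + v)`, `c' τ = a' ^ u` for some integers `u v`
  (the pull-back of the subgroup generated by `x = (s ^ d, a, a')` and `y = (s, a, 1)`);
* it contains every `τ` with `(f τ, c τ, c' τ) = (s ^ d, a, a')` and every `τ` with
  `(f τ, c τ, c' τ) = (s ^ v, a ^ v, 1)`;
* if `s ^ p = 1` and `p` divides the orders of `a` and `a'`, then an element of it killed by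
  `c` and `c'` is killed by `f`;
* the Chinese remainder theorem for units of `ZMod`.
-/
import Mathlib

set_option autoImplicit false

namespace Fermat.Agent.Lib.CFT.Unram.CrossingFields

section CrossSubgroup

variable {Γ G U U' : Type*} [Group Γ] [Group G] [Group U] [Group U']
  (f : Γ →* G) (c : Γ →* U) (c' : Γ →* U') (s : G) (d : ℤ) (a : U) (a' : U')

/-- The subgroup of all `τ : Γ` with `f τ = s ^ (d * u + v)`, `c τ = a ^ (u + v)` and
`c' τ = a' ^ u` for some integers `u`, `v`. -/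
def crossSubgroup : Subgroup Γ where
  carrier := {τ | ∃ u v : ℤ, f τ = s ^ (d * u + v) ∧ c τ = a ^ (u + v) ∧ c' τ = a' ^ u}
  mul_mem' := by
    rintro τ₁ τ₂ ⟨u₁, v₁, h1, h2, h3⟩ ⟨u₂, v₂, k1, k2, k3⟩
    refine ⟨u₁ + u₂, v₁ + v₂, ?_, ?_, ?_⟩
    · rw [map_mul, h1, k1, ← zpow_add]
      congr 1
      ring
    · rw [map_mul, h2, k2, ← zpow_add]
      congr 1
      ring
    · rw [map_mul, h3, k3, ← zpow_add]
  one_mem' := ⟨0, 0, by simp, by simp, by simp⟩
  inv_mem' := by
    rintro τ ⟨u, v, h1, h2, h3⟩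
    refine ⟨-u, -v, ?_, ?_, ?_⟩
    · rw [map_inv, h1, ← zpow_neg]
      congr 1
      ring
    · rw [map_inv, h2, ← zpow_neg]
      congr 1
      ring
    · rw [map_inv, h3, ← zpow_neg]

variable {f c c' s d a a'}

theorem mem_crossSubgroup_iff {τ : Γ} :
    τ ∈ crossSubgroup f c c' s d a a' ↔
      ∃ u v : ℤ, f τ = s ^ (d * u + v) ∧ c τ = a ^ (u + v) ∧ c' τ = a' ^ u :=
  Iff.rfl

/-- An element mapping to `x = (s ^ d, a, a')` lies in the subgroup. -/
theorem mem_crossSubgroup_of_eq_x {τ : Γ} (h1 : f τ = s ^ d) (h2 : c τ = a) (h3 : c' τ = a') :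
    τ ∈ crossSubgroup f c c' s d a a' :=
  ⟨1, 0, by simpa using h1, by simpa using h2, by simpa using h3⟩

/-- An element mapping to `y ^ v = (s ^ v, a ^ v, 1)` lies in the subgroup. -/
theorem mem_crossSubgroup_of_eq_y_zpow {τ : Γ} (v : ℤ) (h1 : f τ = s ^ v) (h2 : c τ = a ^ v)
    (h3 : c' τ = 1) : τ ∈ crossSubgroup f c c' s d a a' :=
  ⟨0, v, by simpa using h1, by simpa using h2, by simpa using h3⟩

/-- The key property: if `s ^ p = 1` and `p` divides the orders of `a` and of `a'`, then an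
element of the subgroup which is killed by `c` and by `c'` is killed by `f`. -/
theorem map_eq_one_of_mem_crossSubgroup {p : ℕ} (hs : s ^ p = 1) (ha : p ∣ orderOf a)
    (ha' : p ∣ orderOf a') {τ : Γ} (hτ : τ ∈ crossSubgroup f c c' s d a a') (h2 : c τ = 1)
    (h3 : c' τ = 1) : f τ = 1 := by
  obtain ⟨u, v, k1, k2, k3⟩ := hτ
  have hu : (p : ℤ) ∣ u := by
    have : (orderOf a' : ℤ) ∣ u := orderOf_dvd_iff_zpow_eq_one.2 (by rw [← k3, h3])
    exact (Int.natCast_dvd_natCast.2 ha').trans this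
  have huv : (p : ℤ) ∣ u + v := by
    have : (orderOf a : ℤ) ∣ u + v := orderOf_dvd_iff_zpow_eq_one.2 (by rw [← k2, h2])
    exact (Int.natCast_dvd_natCast.2 ha).trans this
  have hv : (p : ℤ) ∣ v := (Int.dvd_add_right hu).1 huv
  have hduv : (p : ℤ) ∣ d * u + v := dvd_add (Dvd.dvd.mul_left hu d) hv
  obtain ⟨k, hk⟩ := hduv
  rw [k1, hk, zpow_mul, zpow_natCast, hs, one_zpow]

end CrossSubgroup

section CRT

open Finset

/-- Chinese remainder theorem for units: for pairwise coprime moduli `n i`, any family of units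
`u i : (ZMod (n i))ˣ` comes from a unit modulo the product. -/
theorem exists_units_crt {ι : Type*} [Fintype ι] [DecidableEq ι] (n : ι → ℕ)
    (hn : Pairwise (Function.onFun Nat.Coprime n)) (u : ∀ i, (ZMod (n i))ˣ) :
    ∃ c : (ZMod (∏ i, n i))ˣ,
      ∀ i, ZMod.unitsMap (Finset.dvd_prod_of_mem n (Finset.mem_univ i)) c = u i := by
  classical
  let e := ZMod.prodEquivPi n hn
  let w : (∀ i, ZMod (n i))ˣ := MulEquiv.piUnits.symm u
  refine ⟨Units.map e.symm.toMonoidHom w, fun i => ?_⟩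
  apply Units.ext
  rw [ZMod.unitsMap_def, Units.coe_map, Units.coe_map]
  -- the composite `ZMod (∏ n) → Π ZMod (n i) → ZMod (n i)` is the canonical cast
  have key : ∀ x : ZMod (∏ i, n i),
      ZMod.castHom (Finset.dvd_prod_of_mem n (Finset.mem_univ i)) (ZMod (n i)) x = e x i := by
    intro x
    have h := RingHom.congr_fun (Subsingleton.elim
      (ZMod.castHom (Finset.dvd_prod_of_mem n (Finset.mem_univ i)) (ZMod (n i)))
      ((Pi.evalRingHom (fun i => ZMod (n i)) i).comp e.toRingHom)) x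
    simpa using h
  change ZMod.castHom (Finset.dvd_prod_of_mem n (Finset.mem_univ i)) (ZMod (n i))
    (e.symm (w : ∀ i, ZMod (n i))) = (u i : ZMod (n i))
  rw [key, RingEquiv.apply_symm_apply]
  rfl

end CRT

end Fermat.Agent.Lib.CFT.Unram.CrossingFields
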