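/-
helper80 (P-CFT, S14 fast track, WP-A5 "crossing fields").  The subgroup `H ≤ Gal(M/K)`,
`M = L(ζ_m)`, attached to one prime `𝔭` of `K` and two prime factors `n j`, `n j'` of `m`
modulo which the norm of `𝔭` has order divisible by `p = [L:K]`:

* `H` meets the kernel of the cyclotomic character trivially (so `F(ζ_m) = M` for its fixed
  field `F`);
* `H` contains every `τ` with `τ|_L = s ^ v`, `χ(τ) ≡ N𝔭 ^ v mod n j`, `χ(τ) ≡ 1 mod n j'`
  (so `H → Gal(L/K)` is onto);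
* `H` contains a Frobenius element at a prime above `𝔭`, hence `𝔭` is the relative norm of a
  prime of the fixed field of `H`.
-/
import Mathlib
import Fermat.Agent.Lib.CFT.Unram.CrossingDefs
import Fermat.Agent.Lib.CFT.Unram.CrossingFields.Defs
import Fermat.Agent.Lib.CFT.Unram.CrossingFields.Tower
import Fermat.Agent.Lib.CFT.Unram.CrossingFields.FixedCyclo
import Fermat.Agent.Lib.CFT.Unram.CrossingFields.FixedFieldPrime
import Fermat.Agent.Lib.CFT.Unram.CrossingFields.Group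

set_option autoImplicit false
set_option linter.unusedSectionVars false

namespace Fermat.Agent.Lib.CFT.Unram.CrossingFields

open NumberField IntermediateField Polynomial
open scoped nonZeroDivisors

section OnePrime

variable (K L M : Type*) [Field K] [NumberField K] [Field L] [NumberField L] [Field M]
  [NumberField M] [Algebra K L] [Algebra L M] [Algebra K M] [IsScalarTower K L M]
  [IsGalois K L] [IsGalois K M] (m : ℕ) [NeZero m] [IsCyclotomicExtension {m} L M]

/-- The unit of `ZMod n` defined by a natural number coprime to a multiple `m` of `n`. -/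
noncomputable def unitMod {m : ℕ} (a : ℕ) (ha : Nat.Coprime a m) {n : ℕ} (hn : n ∣ m) :
    (ZMod n)ˣ :=
  ZMod.unitOfCoprime a (Nat.Coprime.coprime_dvd_right hn ha)

theorem orderOf_unitMod {m : ℕ} (a : ℕ) (ha : Nat.Coprime a m) {n : ℕ} (hn : n ∣ m) :
    orderOf (unitMod a ha hn) = orderOf (a : ZMod n) := by
  rw [← orderOf_units, unitMod, ZMod.coe_unitOfCoprime]

/-- The reduction modulo `n ∣ m` of the cyclotomic character of a Frobenius element at a prime
`P` (not containing `m`) is the class of the norm of the prime below. -/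
theorem unitsMap_chi_of_isArithFrobAt {σ : Gal(M/K)} {P : Ideal (𝓞 M)} (hmP : (m : 𝓞 M) ∉ P)
    (hσ : IsArithFrobAt (𝓞 K) σ P) (ha : Nat.Coprime (Ideal.absNorm (P.under (𝓞 K))) m)
    {n : ℕ} (hn : n ∣ m) :
    ZMod.unitsMap hn (chi K L M m σ) = unitMod (Ideal.absNorm (P.under (𝓞 K))) ha hn := by
  apply Units.ext
  rw [ZMod.unitsMap_def, Units.coe_map, unitMod, ZMod.coe_unitOfCoprime]
  show ZMod.castHom hn (ZMod n) ((chi K L M m σ : (ZMod m)ˣ) : ZMod m) = _
  rw [chi_of_isArithFrobAt K L M m hmP hσ, map_natCast]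

variable {K L M m}

/-- **The subgroup attached to one prime.** -/
theorem exists_subgroup_of_prime {p : ℕ} (hcard : Nat.card Gal(L/K) = p)
    (s : Gal(L/K)) (hs : ∀ g : Gal(L/K), g ∈ Subgroup.zpowers s)
    (𝔭 : (Ideal (𝓞 K))⁰) (h𝔭 : (𝔭 : Ideal (𝓞 K)).IsPrime)
    (ha : Nat.Coprime (Ideal.absNorm (𝔭 : Ideal (𝓞 K))) m)
    {ℓ ℓ' : ℕ} (hℓ : ℓ ∣ m) (hℓ' : ℓ' ∣ m)
    (hord : p ∣ orderOf ((Ideal.absNorm (𝔭 : Ideal (𝓞 K)) : ℕ) : ZMod ℓ))
    (hord' : p ∣ orderOf ((Ideal.absNorm (𝔭 : Ideal (𝓞 K)) : ℕ) : ZMod ℓ')) :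
    ∃ H : Subgroup Gal(M/K),
      H ⊓ (chi K L M m).ker = ⊥ ∧
      (∀ (τ : Gal(M/K)) (v : ℤ), AlgEquiv.restrictNormalHom L τ = s ^ v →
        ZMod.unitsMap hℓ (chi K L M m τ) = unitMod _ ha hℓ ^ v →
        ZMod.unitsMap hℓ' (chi K L M m τ) = 1 → τ ∈ H) ∧
      ∃ 𝔮 : (Ideal (𝓞 (fixedField H)))⁰, relNorm0 K (fixedField H) 𝔮 = 𝔭 ∧
        IsCoprime (𝔮 : Ideal (𝓞 (fixedField H))) (Ideal.span {(m : 𝓞 (fixedField H))}) := by
  classical
  have h𝔭0 : (𝔭 : Ideal (𝓞 K)) ≠ ⊥ := nonZeroDivisors.coe_ne_zero 𝔭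
  -- a prime of `M` above `𝔭`
  obtain ⟨P, -, hPprime, hPover⟩ :=
    Ideal.exists_ideal_over_prime_of_isIntegral (𝔭 : Ideal (𝓞 K)) (⊥ : Ideal (𝓞 M))
      (by rw [Ideal.comap_bot_of_injective _ (FaithfulSMul.algebraMap_injective (𝓞 K) (𝓞 M))]
          exact bot_le)
  have hlies : P.LiesOver (𝔭 : Ideal (𝓞 K)) := ⟨hPover.symm⟩
  have hunder : P.under (𝓞 K) = (𝔭 : Ideal (𝓞 K)) := hPover
  have hP0 : P ≠ ⊥ := by
    rintro rfl
    apply h𝔭0
    rw [← hunder]
    exact Ideal.under_bot _ _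
  have hfin : Finite (𝓞 M ⧸ P) := Ideal.finiteQuotientOfFreeOfNeBot P hP0
  -- a Frobenius element
  obtain ⟨φ, hφ⟩ := IsArithFrobAt.exists_of_isInvariant (𝓞 K) Gal(M/K) P
  have ha' : Nat.Coprime (Ideal.absNorm (P.under (𝓞 K))) m := by rw [hunder]; exact ha
  have hmP : (m : 𝓞 M) ∉ P := natCast_notMem_of_coprime_absNorm K M m P ha'.symm
  obtain ⟨d, hd⟩ := Subgroup.mem_zpowers_iff.1 (hs (AlgEquiv.restrictNormalHom L φ))
  -- the subgroup
  set c : Gal(M/K) →* (ZMod ℓ)ˣ := (ZMod.unitsMap hℓ).comp (chi K L M m) with hc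
  set c' : Gal(M/K) →* (ZMod ℓ')ˣ := (ZMod.unitsMap hℓ').comp (chi K L M m) with hc'
  set a : (ZMod ℓ)ˣ := unitMod _ ha hℓ with hadef
  set a' : (ZMod ℓ')ˣ := unitMod _ ha hℓ' with ha'def
  refine ⟨crossSubgroup (AlgEquiv.restrictNormalHom L) c c' s d a a', ?_, ?_, ?_⟩
  · -- trivial intersection with the kernel of `chi`
    rw [eq_bot_iff]
    rintro τ ⟨hτH, hτk⟩
    rw [Subgroup.mem_bot]
    have hχ : chi K L M m τ = 1 := hτk
    have hsp : s ^ p = 1 := by rw [← hcard]; exact pow_card_eq_one'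
    have h1 : AlgEquiv.restrictNormalHom L τ = 1 :=
      map_eq_one_of_mem_crossSubgroup hsp (by rw [hadef, orderOf_unitMod]; exact hord)
        (by rw [ha'def, orderOf_unitMod]; exact hord') hτH
        (by rw [hc, MonoidHom.comp_apply, hχ, map_one])
        (by rw [hc', MonoidHom.comp_apply, hχ, map_one])
    apply toProd_injective K L M m
    rw [map_one]
    exact Prod.ext h1 hχ
  · intro τ v h1 h2 h3
    exact mem_crossSubgroup_of_eq_y_zpow v h1 h2 h3
  · -- the Frobenius element lies in the subgroup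
    have hφH : φ ∈ crossSubgroup (AlgEquiv.restrictNormalHom L) c c' s d a a' := by
      refine mem_crossSubgroup_of_eq_x hd.symm ?_ ?_
      · rw [hc, MonoidHom.comp_apply, unitsMap_chi_of_isArithFrobAt K L M m hmP hφ ha' hℓ]
        simp only [hadef, hunder]
      · rw [hc', MonoidHom.comp_apply, unitsMap_chi_of_isArithFrobAt K L M m hmP hφ ha' hℓ']
        simp only [ha'def, hunder]
    set H := crossSubgroup (AlgEquiv.restrictNormalHom L) c c' s d a a' with hH
    have hφF : ∀ x ∈ fixedField H, φ x = x := fun x hx =>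
      (IntermediateField.mem_fixedField_iff H x).1 hx φ hφH
    obtain ⟨𝔮, -, h𝔮, hnorm⟩ :=
      FixedFieldPrime.exists_prime_relNorm0_eq (fixedField H) 𝔭 P hφF hφ
    refine ⟨𝔮, hnorm, ?_⟩
    rw [h𝔮]
    exact FixedFieldPrime.isCoprime_under_span_natCast (fixedField H) P hP0 m hmP

end OnePrime

end Fermat.Agent.Lib.CFT.Unram.CrossingFields
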